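import Fermat.Agent.GR.S.FF.L1

/-!
# LP-OLD, file 1: the abstract (pure group theory) part

`Dv` = divisors, `Pr` = principal divisors, `ρ : Dv →+ (S →₀ ℤ)` = reduction of divisors,
`Γ` = divisors (of degree `0`) whose class is fixed by an open subgroup of the Galois group,
`𝒴` = a set of representatives of the classes in `Γ` with bounded norm and finitely many reductions.
-/

set_option autoImplicit false

namespace Fermat.Agent.LP.Old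

open Fermat.Agent.GR.S

variable {Dv S : Type*} [AddCommGroup Dv]

/-- the total degree of a finitely supported function. -/
noncomputable def tot : (S →₀ ℤ) →+ ℤ :=
  Finsupp.liftAddHom fun _ => AddMonoidHom.id ℤ

/-- (A1) pigeonhole: `m E = Y_m + g_m`; two values of `m` with `ρ Y_m = ρ Y_m'` give
`|m - m'| ‖Ψ E‖ ≤ 2 B`. -/
theorem Abs_psi_eq_zero (Pr Γ : AddSubgroup Dv) (ρ Ψ : Dv →+ (S →₀ ℤ)) (𝒴 : Set Dv) (B : ℕ)
    (H1 : ∀ f ∈ Pr, ρ f = 0 → Ψ f = 0)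
    (hrep : ∀ Y ∈ Γ, ∃ Y' ∈ 𝒴, Y - Y' ∈ Pr)
    (hB : ∀ Y' ∈ 𝒴, l1 (Ψ Y') ≤ B)
    (hfin : (ρ '' 𝒴).Finite) {E : Dv} (hE : E ∈ Γ) (hρ : ρ E = 0) : Ψ E = 0 := by
  have hm : ∀ m : ℕ, ∃ Y' ∈ 𝒴, (m * (2 * B + 1)) • E - Y' ∈ Pr := fun m =>
    hrep _ (Γ.nsmul_mem hE _)
  choose Y hY𝒴 hYPr using hm
  have hfin' : Finite (ρ '' 𝒴) := hfin.to_subtype
  obtain ⟨m, m', hne, heq⟩ := Finite.exists_ne_map_eq_of_infinite
    (fun m : ℕ => (⟨ρ (Y m), Set.mem_image_of_mem ρ (hY𝒴 m)⟩ : ρ '' 𝒴))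
  have heq' : ρ (Y m) = ρ (Y m') := congrArg Subtype.val heq
  have hf : ((m' * (2 * B + 1)) • E - Y m') - ((m * (2 * B + 1)) • E - Y m) ∈ Pr :=
    Pr.sub_mem (hYPr m') (hYPr m)
  have hρf : ρ (((m' * (2 * B + 1)) • E - Y m') - ((m * (2 * B + 1)) • E - Y m)) = 0 := by
    rw [map_sub, map_sub, map_sub, map_nsmul, map_nsmul, hρ, heq']
    simp
  have hΨ := H1 _ hf hρf
  rw [map_sub, map_sub, map_sub, map_nsmul, map_nsmul] at hΨ
  have key : (((m' : ℤ) - m) * (2 * B + 1)) • Ψ E = Ψ (Y m') - Ψ (Y m) := by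
    have h1 : (((m' : ℤ) - m) * (2 * B + 1)) • Ψ E =
        (m' * (2 * B + 1)) • Ψ E - (m * (2 * B + 1)) • Ψ E := by
      rw [← natCast_zsmul, ← natCast_zsmul, ← sub_smul]
      congr 1
      push_cast
      ring
    rw [h1]
    have h2 : (m' * (2 * B + 1)) • Ψ E - (m * (2 * B + 1)) • Ψ E - (Ψ (Y m') - Ψ (Y m)) = 0 := by
      rw [← hΨ]
      abel
    exact sub_eq_zero.1 h2
  have hle : l1 ((((m' : ℤ) - m) * (2 * B + 1)) • Ψ E) ≤ 2 * B := by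
    rw [key]
    have := l1_sub_le (Ψ (Y m')) (Ψ (Y m))
    have h3 := hB _ (hY𝒴 m')
    have h4 := hB _ (hY𝒴 m)
    omega
  rw [L1_zsmul, Int.natAbs_mul] at hle
  rw [← l1_eq_zero_iff]
  by_contra h0
  have h5 : 1 ≤ ((m' : ℤ) - m).natAbs := by
    have : (m' : ℤ) - m ≠ 0 := by
      intro h
      apply hne
      omega
    omega
  have h6 : ((2 : ℤ) * B + 1).natAbs = 2 * B + 1 := by omega
  rw [h6] at hle
  have h7 : 1 ≤ l1 (Ψ E) := Nat.one_le_iff_ne_zero.2 h0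
  have h8 : 1 * (2 * B + 1) * 1 ≤ ((m' : ℤ) - m).natAbs * (2 * B + 1) * l1 (Ψ E) :=
    Nat.mul_le_mul (Nat.mul_le_mul h5 le_rfl) h7
  omega

/-- (A2) a uniform exponent of the image of `Γ` in `(S →₀ ℤ) / ρ Pr`. -/
theorem Abs_exists_exponent (Pr Γ : AddSubgroup Dv) (ρ : Dv →+ (S →₀ ℤ)) (𝒴 : Set Dv)
    (hrep : ∀ Y ∈ Γ, ∃ Y' ∈ 𝒴, Y - Y' ∈ Pr) (hfin : (ρ '' 𝒴).Finite) :
    ∃ h : ℕ, 0 < h ∧ ∀ Y ∈ Γ, ∃ f ∈ Pr, ρ (h • Y) = ρ f := by
  let π : Dv →+ (S →₀ ℤ) ⧸ (Pr.map ρ) := (QuotientAddGroup.mk' (Pr.map ρ)).comp ρ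
  have hπ : ∀ f ∈ Pr, π f = 0 := fun f hf =>
    (QuotientAddGroup.eq_zero_iff _).2 (AddSubgroup.mem_map_of_mem ρ hf)
  have hXfin : ((Γ.map π : AddSubgroup _) : Set ((S →₀ ℤ) ⧸ (Pr.map ρ))).Finite := by
    refine (hfin.image (QuotientAddGroup.mk' (Pr.map ρ))).subset ?_
    rintro _ ⟨Y, hY, rfl⟩
    obtain ⟨Y', hY', hYY'⟩ := hrep Y hY
    refine ⟨ρ Y', Set.mem_image_of_mem ρ hY', ?_⟩
    have h1 := hπ _ hYY'
    rw [map_sub, sub_eq_zero] at h1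
    exact h1.symm
  have hX : Finite (Γ.map π) := hXfin.to_subtype
  refine ⟨Nat.card (Γ.map π), Nat.card_pos, fun Y hY => ?_⟩
  have h2 : Nat.card (Γ.map π) • (⟨π Y, AddSubgroup.mem_map_of_mem π hY⟩ : Γ.map π) = 0 :=
    card_nsmul_eq_zero'
  have h3 : π (Nat.card (Γ.map π) • Y) = 0 := by
    rw [map_nsmul]
    exact congrArg Subtype.val h2
  obtain ⟨f, hf, hfρ⟩ := (QuotientAddGroup.eq_zero_iff _).1 h3
  exact ⟨f, hf, hfρ.symm⟩

/-- (A3) an operator which maps every `n`-th root of a class of `Γ` into `Γ` kills the reduction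
of the classes of `Γ`. -/
theorem Abs_main (Pr Γ Dv0 : AddSubgroup Dv) (ρ : Dv →+ (S →₀ ℤ)) (𝒴 : Set Dv) (t : Dv →+ Dv)
    (hrep : ∀ Y ∈ Γ, ∃ Y' ∈ 𝒴, Y - Y' ∈ Pr) (hfin : (ρ '' 𝒴).Finite)
    (htPr : ∀ f ∈ Pr, t f ∈ Pr)
    (hdiv : ∀ Y ∈ Dv0, ∀ n : ℕ, 0 < n → ∃ B ∈ Dv0, n • B - Y ∈ Pr)
    (hstab : ∀ Y ∈ Γ, ∀ n : ℕ, 0 < n → ∀ B ∈ Dv0, n • B - Y ∈ Pr → t B ∈ Γ)
    (hΓ : Γ ≤ Dv0) {Y : Dv} (hY : Y ∈ Γ) : ∃ f ∈ Pr, ρ (t Y) = ρ f := by
  obtain ⟨h, hh, hexp⟩ := Abs_exists_exponent Pr Γ ρ 𝒴 hrep hfin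
  obtain ⟨B, hB0, hBY⟩ := hdiv Y (hΓ hY) h hh
  obtain ⟨f, hf, hfρ⟩ := hexp (t B) (hstab Y hY h hh B hB0 hBY)
  refine ⟨f - t (h • B - Y), Pr.sub_mem hf (htPr _ hBY), ?_⟩
  rw [map_sub, ← hfρ, map_sub, map_sub, map_nsmul, map_nsmul, map_nsmul]
  abel

/-- (A4) an operator which commutes with the Galois action and kills the torsion classes maps the
`n`-th roots of a `g`-fixed class to `g`-fixed classes. -/
theorem Abs_stab {G : Type*} [Group G] [DistribMulAction G Dv] (g : G)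
    (Pr Dv0 : AddSubgroup Dv) (t : Dv →+ Dv)
    (hgPr : ∀ f ∈ Pr, g • f ∈ Pr) (hcomm : ∀ Y : Dv, t (g • Y) = g • t Y)
    (htors : ∀ Y ∈ Dv0, ∀ n : ℕ, 0 < n → n • Y ∈ Pr → t Y ∈ Pr)
    (hg0 : ∀ Y ∈ Dv0, g • Y ∈ Dv0)
    {Y : Dv} (hY : g • Y - Y ∈ Pr) {n : ℕ} (hn : 0 < n) {B : Dv} (hB : B ∈ Dv0)
    (hBY : n • B - Y ∈ Pr) : g • t B - t B ∈ Pr := by
  have hZ0 : g • B - B ∈ Dv0 := Dv0.sub_mem (hg0 B hB) hB
  have hnZ : n • (g • B - B) ∈ Pr := by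
    have h1 : n • (g • B - B) = (g • (n • B - Y) - (n • B - Y)) + (g • Y - Y) := by
      rw [smul_sub, smul_sub, smul_comm g n B]
      abel
    rw [h1]
    exact Pr.add_mem (Pr.sub_mem (hgPr _ hBY) hBY) hY
  have h2 := htors _ hZ0 n hn hnZ
  rwa [map_sub, hcomm] at h2

/-- a push forward all of whose coefficients are divisible by `p` is `p` times a push forward. -/
theorem Abs_exists_div {P : Type*} (r : P → S) (X : P →₀ ℤ) (p : ℕ)
    (h : ∀ s, (p : ℤ) ∣ (X.mapDomain r) s) : ∃ D : P →₀ ℤ, X.mapDomain r = p • D.mapDomain r := by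
  classical
  set W := X.mapDomain r with hW
  let E : S →₀ ℤ := W.mapRange (fun n => n / (p : ℤ)) (by simp)
  have hWE : W = p • E := by
    ext s
    rw [Finsupp.smul_apply, Finsupp.mapRange_apply, nsmul_eq_mul, Int.mul_ediv_cancel' (h s)]
  have hsec : ∀ s ∈ E.support, ∃ Q : P, r Q = s := by
    intro s hs
    have hs' : s ∈ W.support := by
      rw [Finsupp.mem_support_iff] at hs ⊢
      intro h0
      apply hs
      rw [Finsupp.mapRange_apply, h0, Int.zero_ediv]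
    obtain ⟨Q, -, hQ⟩ := Finset.mem_image.1 (Finsupp.mapDomain_support hs')
    exact ⟨Q, hQ⟩
  choose σ hσ using hsec
  refine ⟨∑ s ∈ E.support.attach, Finsupp.single (σ s.1 s.2) (E s.1), ?_⟩
  rw [hWE]
  congr 1
  rw [Finsupp.mapDomain_finsetSum]
  simp only [Finsupp.mapDomain_single, hσ]
  rw [Finset.sum_attach E.support (fun s => Finsupp.single s (E s))]
  exact (Finsupp.sum_single E).symm

/-- the total degree of a push forward. -/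
theorem tot_mapDomain {P : Type*} (r : P → S) (X : P →₀ ℤ) :
    tot (X.mapDomain r) = X.sum fun _ n => n := by
  unfold tot
  rw [Finsupp.liftAddHom_apply, Finsupp.sum_mapDomain_index_addMonoidHom]
  rfl

/-- finitely supported functions with support in a finite set and bounded norm. -/
theorem Abs_finite_of_l1_le (R : Set S) (hR : R.Finite) (B : ℕ) :
    {x : S →₀ ℤ | (∀ s, x s ≠ 0 → s ∈ R) ∧ l1 x ≤ B}.Finite := by
  classical
  refine (Finset.finite_toSet (hR.toFinset.finsupp fun _ => Finset.Icc (-(B : ℤ)) B)).subset ?_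
  rintro x ⟨hx, hxB⟩
  rw [Finset.mem_coe, Finset.mem_finsupp_iff]
  refine ⟨fun s hs => hR.mem_toFinset.2 (hx s (Finsupp.mem_support_iff.1 hs)), fun s _ => ?_⟩
  have h1 : (x s).natAbs ≤ l1 x := by
    by_cases hs : s ∈ x.support
    · exact Finset.single_le_sum (f := fun s => (x s).natAbs) (fun _ _ => Nat.zero_le _) hs
    · rw [Finsupp.notMem_support_iff.1 hs]
      exact Nat.zero_le _
  rw [Finset.mem_Icc]
  omega

/-- (A5) the final step: `dv u = p D + E`. -/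
theorem Abs_final {M : Type*} [AddCommGroup M] (dv : M →+ Dv) (ρ : Dv →+ (S →₀ ℤ))
    (tM : M →+ M) (tD : Dv →+ Dv) (hint : ∀ m, dv (tM m) = tD (dv m))
    (hker : ∀ E, ρ E = 0 → ρ (tD E) = 0)
    (hmain : ∀ Y, tot (ρ Y) = 0 → ∃ m, ρ (tD Y) = ρ (dv m))
    (p : ℕ) (hp : 0 < p) (u : M) (D : Dv) (hu : ρ (dv u) = p • ρ D) (htot : tot (ρ (dv u)) = 0) :
    ∃ z : M, ρ (dv (tM u - p • z)) = 0 := by
  have htD : tot (ρ D) = 0 := by
    rw [hu, map_nsmul, nsmul_eq_mul] at htot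
    rcases mul_eq_zero.1 htot with h | h
    · exact absurd h (by exact_mod_cast hp.ne')
    · exact h
  obtain ⟨z, hz⟩ := hmain D htD
  refine ⟨z, ?_⟩
  have hE : ρ (tD (dv u - p • D)) = 0 := hker _ (by rw [map_sub, map_nsmul, hu, sub_self])
  rw [map_sub, map_sub, map_nsmul, map_nsmul] at hE
  rw [map_sub, map_sub, hint, map_nsmul, map_nsmul, ← hz]
  exact hE

end Fermat.Agent.LP.Old
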