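import Fermat.Agent.LP.Old.FinFib
import Fermat.Agent.S17.FF.Canon
import Fermat.Agent.S17.WMW.OpenStab

/-!
# LP-OLD, file 8: classes fixed by an open subgroup of the Galois group and their canonical
representatives
-/

set_option autoImplicit false
set_option synthInstance.maxHeartbeats 400000

noncomputable section

namespace Fermat.Agent.LP.Old

open AlgebraicCurve ModularCurve Fermat.Agent.GR Fermat.Agent.GR.S Fermat.Agent.S17.FF
open Fermat.Agent.S17.WMW (Qb GQ FB gal)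

variable (N : ℕ) [NeZero N]

/-- principal divisors. -/
def Pr : AddSubgroup (Divisor Qb (FB N)) := (dv N).range

/-- divisors of degree `0`. -/
def Dv0 : AddSubgroup (Divisor Qb (FB N)) := Divisor.degZero (K := Qb) (F := FB N)

theorem mem_Pr_iff (D : Divisor Qb (FB N)) :
    D ∈ Pr N ↔ ∃ f : FB N, f ≠ 0 ∧ D = divf (K := Qb) f := by
  unfold Pr
  rw [AddMonoidHom.mem_range]
  constructor
  · rintro ⟨u, rfl⟩
    exact ⟨_, (Additive.toMul u).ne_zero, dv_apply N u⟩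
  · rintro ⟨f, hf, rfl⟩
    exact ⟨Additive.ofMul (Units.mk0 f hf), rfl⟩

theorem mem_Dv0_iff (D : Divisor Qb (FB N)) : D ∈ Dv0 N ↔ Divisor.degree D = 0 := Iff.rfl

theorem Pr_le_Dv0 : Pr N ≤ Dv0 N := by
  intro D hD
  obtain ⟨f, -, rfl⟩ := (mem_Pr_iff N D).1 hD
  rw [mem_Dv0_iff]
  exact degree_divf f

theorem gal_smul_mem_Pr (σ : GQ) {D : Divisor Qb (FB N)} (hD : D ∈ Pr N) :
    gal N σ • D ∈ Pr N := by
  obtain ⟨f, hf, rfl⟩ := (mem_Pr_iff N D).1 hD
  rw [mem_Pr_iff]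
  refine ⟨gal N σ • f, ?_, (divf_smul (gal N σ) f).symm⟩
  rwa [Ne, smul_eq_zero_iff']

theorem gal_smul_mem_Dv0 (σ : GQ) {D : Divisor Qb (FB N)} (hD : D ∈ Dv0 N) :
    gal N σ • D ∈ Dv0 N := by
  rw [mem_Dv0_iff] at hD ⊢
  rw [SemilinearAut.degree_smul, hD]

/-- the divisors of degree `0` whose class is fixed by `Gal(ℚ̄ / L)`. -/
def Gam (L : IntermediateField ℚ Qb) : AddSubgroup (Divisor Qb (FB N)) where
  carrier := {Y | Y ∈ Dv0 N ∧ ∀ τ ∈ L.fixingSubgroup, gal N τ • Y - Y ∈ Pr N}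
  zero_mem' := ⟨zero_mem _, fun τ _ => by simp⟩
  add_mem' := by
    rintro a b ⟨ha, ha'⟩ ⟨hb, hb'⟩
    refine ⟨add_mem ha hb, fun τ hτ => ?_⟩
    have : gal N τ • (a + b) - (a + b) = (gal N τ • a - a) + (gal N τ • b - b) := by
      rw [smul_add]; abel
    rw [this]
    exact add_mem (ha' τ hτ) (hb' τ hτ)
  neg_mem' := by
    rintro a ⟨ha, ha'⟩
    refine ⟨neg_mem ha, fun τ hτ => ?_⟩
    have : gal N τ • (-a) - (-a) = -(gal N τ • a - a) := by
      rw [smul_neg]; abel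
    rw [this]
    exact neg_mem (ha' τ hτ)

theorem mem_Gam_iff (L : IntermediateField ℚ Qb) (Y : Divisor Qb (FB N)) :
    Y ∈ Gam N L ↔ Y ∈ Dv0 N ∧ ∀ τ ∈ L.fixingSubgroup, gal N τ • Y - Y ∈ Pr N := Iff.rfl

/-- the divisors of degree `0`, of norm `≤ 2 g`, fixed by `Gal(ℚ̄ / L)`. -/
def Yset (L : IntermediateField ℚ Qb) : Set (Divisor Qb (FB N)) :=
  {Y | l1 Y ≤ 2 * genus Qb (FB N) ∧ ∀ τ ∈ L.fixingSubgroup, gal N τ • Y = Y}

theorem exists_level (Y : Divisor Qb (FB N)) (hY : Y ∈ Dv0 N) :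
    ∃ L : IntermediateField ℚ Qb, FiniteDimensional ℚ L ∧ Y ∈ Gam N L := by
  obtain ⟨L, hL, h⟩ := Fermat.Agent.S17.WMW.exists_level_divisor N Y
  refine ⟨L, hL, hY, fun τ hτ => ?_⟩
  rw [h τ hτ, sub_self]
  exact zero_mem _

/-- canonical representatives (`S17.FF.canonRep (oo N) x 0`). -/
theorem exists_rep (L : IntermediateField ℚ Qb) (Y : Divisor Qb (FB N)) (hY : Y ∈ Gam N L) :
    ∃ Y' ∈ Yset N L, Y - Y' ∈ Pr N := by
  obtain ⟨hY0, hYfix⟩ := hY
  rw [mem_Dv0_iff] at hY0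
  set oo := Fermat.Agent.S17.WMW.oo N with hoo
  set x := cls oo Y with hx
  have hfix : ∀ τ ∈ L.fixingSubgroup, gal N τ • x = x := by
    intro τ hτ
    rw [hx, cls_smul, Fermat.Agent.S17.WMW.gal_smul_oo]
    obtain ⟨f, hf, hfY⟩ := (mem_Pr_iff N _).1 (hYfix τ hτ)
    symm
    rw [cls_eq_cls_iff oo (by rw [SemilinearAut.degree_smul])]
    exact ⟨f, hf, by rw [← hfY]; abel⟩
  refine ⟨canonRep oo x 0, ⟨?_, fun τ hτ =>
    smul_canonRep oo (gal N τ) (Fermat.Agent.S17.WMW.gal_smul_oo N τ) (hfix τ hτ) 0⟩, ?_⟩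
  · unfold canonRep
    refine (l1_add_le _ _).trans ?_
    rw [l1_single]
    have h1 : (l1 (canon oo x) : ℤ) = Divisor.degree (canon oo x) := by
      rw [l1_eq_sum_of_nonneg (fun s => canon_nonneg oo x s), degree_eq_sum]
    have h2 := degree_canon_le oo x
    omega
  · have h1 : cls oo (canonRep oo x 0) = cls oo Y := cls_canonRep oo x 0
    rw [cls_eq_cls_iff oo (by rw [degree_canonRep, hY0])] at h1
    obtain ⟨f, hf, hfY⟩ := h1
    rw [mem_Pr_iff]
    exact ⟨f, hf, by rw [hfY]; abel⟩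

theorem Canon_card_support_le {S : Type*} (E : S →₀ ℤ) : E.support.card ≤ l1 E := by
  rw [l1, Finsupp.sum, Finset.card_eq_sum_ones]
  refine Finset.sum_le_sum fun s hs => ?_
  have := Finsupp.mem_support_iff.1 hs
  omega

variable {N}
variable {A : ValuationSubring Qb} {𝒪 : ValuationSubring (FB N)} {h : FB N}

theorem finite_image_Yset (RD : RedData A (FB N) 𝒪 h) {p : ℕ} (hp : p.Prime)
    (hA : A.LiesOverPrime p) (L : IntermediateField ℚ Qb) [FiniteDimensional ℚ L] :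
    (rho A h '' Yset N L).Finite := by
  classical
  have hR := finite_red_orbit RD hp hA L (2 * genus Qb (FB N))
  refine (Abs_finite_of_l1_le _ hR (2 * genus Qb (FB N))).subset ?_
  rintro _ ⟨Y, ⟨hYl, hYfix⟩, rfl⟩
  refine ⟨fun s hs => ?_, (l1_rho_le Y).trans hYl⟩
  rw [rho_apply] at hs
  obtain ⟨P, hP, hPs⟩ := Finset.mem_image.1
    (Finsupp.mapDomain_support (Finsupp.mem_support_iff.2 hs))
  refine ⟨P, hPs, Y.support, (Canon_card_support_le Y).trans hYl, hP, fun τ hτ Q hQ => ?_⟩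
  rw [Finsupp.mem_support_iff] at hQ ⊢
  have h1 := SemilinearAut.divisor_smul_apply_smul (gal N τ) Y Q
  rw [hYfix τ hτ] at h1
  rwa [h1]

end Fermat.Agent.LP.Old
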