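import Fermat.Agent.LP.Old.Free
import Fermat.Agent.GR.H.Iface

/-!
# LP-OLD, file 13: from the divisibility statement to a character of the Hecke algebra
-/

set_option autoImplicit false

noncomputable section

namespace Fermat.Agent.LP.Old

open Fermat.Agent.GR.H (HeckeFull)

/-- the surjection from the free algebra. -/
def Chi_phi (N : ℕ) [NeZero N] (S0 : Set ℕ) :
    FreeAlgebra ℤ {ℓ : ℕ // ℓ.Prime ∧ ¬ ℓ ∣ N ∧ ℓ ∉ S0} →ₐ[ℤ] CuspForm.heckeAlgebra N 2 S0 :=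
  FreeAlgebra.lift ℤ (fun i : {ℓ : ℕ // ℓ.Prime ∧ ¬ ℓ ∣ N ∧ ℓ ∉ S0} =>
    (CuspForm.heckeAlgebra.T i.2.1 i.2.2.1 i.2.2.2 : CuspForm.heckeAlgebra N 2 S0))

theorem Chi_phi_surjective (N : ℕ) [NeZero N] (S0 : Set ℕ)
    (hS0 : ∀ q : ℕ, q.Prime → q ∣ N → q ∈ S0) : Function.Surjective (Chi_phi N S0) := by
  rintro ⟨x, hx⟩
  suffices h : ∃ t, ((Chi_phi N S0 t : CuspForm.heckeAlgebra N 2 S0) :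
      Module.End ℂ (CuspForm (CongruenceSubgroup.Gamma0 N) 2)) = x by
    obtain ⟨t, ht⟩ := h
    exact ⟨t, Subtype.ext ht⟩
  induction hx using Algebra.adjoin_induction with
  | mem x hx =>
    rcases hx with ⟨ℓ, hℓ, hℓN, hℓS, rfl⟩ | ⟨q, hqN, hq, hqS, rfl⟩
    · refine ⟨FreeAlgebra.ι ℤ ⟨ℓ, hℓ, hℓN, hℓS⟩, ?_⟩
      rw [Chi_phi, FreeAlgebra.lift_ι_apply]
      rfl
    · exact absurd (hS0 q hq hqN) hqS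
  | algebraMap r =>
    refine ⟨algebraMap ℤ _ r, ?_⟩
    rw [AlgHom.commutes]
    rfl
  | add x y _ _ hx hy =>
    obtain ⟨s, rfl⟩ := hx
    obtain ⟨t, rfl⟩ := hy
    exact ⟨s + t, by rw [map_add]; rfl⟩
  | mul x y _ _ hx hy =>
    obtain ⟨s, rfl⟩ := hx
    obtain ⟨t, rfl⟩ := hy
    exact ⟨s * t, by rw [map_mul]; rfl⟩

theorem Chi_coe_eq (N : ℕ) [NeZero N] (S0 : Set ℕ)
    (t : FreeAlgebra ℤ {ℓ : ℕ // ℓ.Prime ∧ ¬ ℓ ∣ N ∧ ℓ ∉ S0}) :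
    ((FreeAlgebra.lift ℤ (fun i : {ℓ : ℕ // ℓ.Prime ∧ ¬ ℓ ∣ N ∧ ℓ ∉ S0} =>
        (HeckeFull.T i.2.1 i.2.2.1 : HeckeFull N)) t : HeckeFull N) :
      Module.End ℂ (CuspForm (CongruenceSubgroup.Gamma0 N) 2)) =
    ((Chi_phi N S0 t : CuspForm.heckeAlgebra N 2 S0) :
      Module.End ℂ (CuspForm (CongruenceSubgroup.Gamma0 N) 2)) := by
  have h : (Subalgebra.val (CuspForm.heckeAlgebra N 2 (∅ : Set ℕ))).comp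
      (FreeAlgebra.lift ℤ (fun i : {ℓ : ℕ // ℓ.Prime ∧ ¬ ℓ ∣ N ∧ ℓ ∉ S0} =>
        (HeckeFull.T i.2.1 i.2.2.1 : HeckeFull N))) =
      (Subalgebra.val (CuspForm.heckeAlgebra N 2 S0)).comp (Chi_phi N S0) := by
    apply FreeAlgebra.hom_ext
    funext i
    simp only [Function.comp_apply, AlgHom.comp_apply, Chi_phi, FreeAlgebra.lift_ι_apply]
    rfl
  exact DFunLike.congr_fun h t


/-- the character on the free algebra. -/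
def Chi_psi (N : ℕ) (p : ℕ) (S0 : Set ℕ) (a : ℕ → ℤ) :
    FreeAlgebra ℤ {ℓ : ℕ // ℓ.Prime ∧ ¬ ℓ ∣ N ∧ ℓ ∉ S0} →+* ZMod p :=
  (Int.castRingHom (ZMod p)).comp
    (FreeAlgebra.lift ℤ (fun i : {ℓ : ℕ // ℓ.Prime ∧ ¬ ℓ ∣ N ∧ ℓ ∉ S0} => a i.1)).toRingHom

theorem Chi_psi_apply (N : ℕ) (p : ℕ) (S0 : Set ℕ) (a : ℕ → ℤ)
    (t : FreeAlgebra ℤ {ℓ : ℕ // ℓ.Prime ∧ ¬ ℓ ∣ N ∧ ℓ ∉ S0}) :
    Chi_psi N p S0 a t =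
      ((FreeAlgebra.lift ℤ (fun i : {ℓ : ℕ // ℓ.Prime ∧ ¬ ℓ ∣ N ∧ ℓ ∉ S0} => a i.1) t : ℤ) :
        ZMod p) := by
  rw [Chi_psi, RingHom.comp_apply, eq_intCast, AlgHom.toRingHom_eq_coe, RingHom.coe_coe]

theorem Chi_ker0 (N : ℕ) [NeZero N] (S0 : Set ℕ)
    (t : FreeAlgebra ℤ {ℓ : ℕ // ℓ.Prime ∧ ¬ ℓ ∣ N ∧ ℓ ∉ S0}) (ht : Chi_phi N S0 t = 0) :
    FreeAlgebra.lift ℤ (fun i : {ℓ : ℕ // ℓ.Prime ∧ ¬ ℓ ∣ N ∧ ℓ ∉ S0} =>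
      (HeckeFull.T i.2.1 i.2.2.1 : HeckeFull N)) t = 0 := by
  have h := Chi_coe_eq N S0 t
  rw [ht, ZeroMemClass.coe_zero] at h
  exact (ZeroMemClass.coe_eq_zero).1 h

theorem Chi_ker (N : ℕ) [NeZero N] (p : ℕ) (S0 : Set ℕ) (a : ℕ → ℤ)
    (H : ∀ t : FreeAlgebra ℤ {ℓ : ℕ // ℓ.Prime ∧ ¬ ℓ ∣ N ∧ ℓ ∉ S0},
      FreeAlgebra.lift ℤ (fun i : {ℓ : ℕ // ℓ.Prime ∧ ¬ ℓ ∣ N ∧ ℓ ∉ S0} =>
        (HeckeFull.T i.2.1 i.2.2.1 : HeckeFull N)) t = 0 →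
      (p : ℤ) ∣ FreeAlgebra.lift ℤ (fun i : {ℓ : ℕ // ℓ.Prime ∧ ¬ ℓ ∣ N ∧ ℓ ∉ S0} => a i.1) t) :
    RingHom.ker (Chi_phi N S0).toRingHom ≤ RingHom.ker (Chi_psi N p S0 a) := by
  intro t ht
  rw [RingHom.mem_ker] at ht ⊢
  rw [AlgHom.toRingHom_eq_coe, RingHom.coe_coe] at ht
  rw [Chi_psi_apply]
  exact (ZMod.intCast_zmod_eq_zero_iff_dvd _ p).2 (H t (Chi_ker0 N S0 t ht))

/-- `ι` = the primes not dividing `N` outside `S0` (this is `Idx N S0` of `Ops.lean`). -/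
theorem exists_chi (N : ℕ) [NeZero N] (p : ℕ) (S0 : Set ℕ)
    (hS0 : ∀ q : ℕ, q.Prime → q ∣ N → q ∈ S0) (a : ℕ → ℤ)
    (H : ∀ t : FreeAlgebra ℤ {ℓ : ℕ // ℓ.Prime ∧ ¬ ℓ ∣ N ∧ ℓ ∉ S0},
      FreeAlgebra.lift ℤ (fun i : {ℓ : ℕ // ℓ.Prime ∧ ¬ ℓ ∣ N ∧ ℓ ∉ S0} =>
        (HeckeFull.T i.2.1 i.2.2.1 : HeckeFull N)) t = 0 →
      (p : ℤ) ∣ FreeAlgebra.lift ℤ (fun i : {ℓ : ℕ // ℓ.Prime ∧ ¬ ℓ ∣ N ∧ ℓ ∉ S0} => a i.1) t) :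
    ∃ χ : CuspForm.heckeAlgebra N 2 S0 →+* ZMod p,
      ∀ (ℓ : ℕ) (hℓ : ℓ.Prime) (hℓN : ¬ ℓ ∣ N) (hℓS : ℓ ∉ S0),
        χ (CuspForm.heckeAlgebra.T hℓ hℓN hℓS) = (a ℓ : ZMod p) := by
  refine ⟨RingHom.liftOfSurjective (Chi_phi N S0).toRingHom (Chi_phi_surjective N S0 hS0)
    ⟨Chi_psi N p S0 a, Chi_ker N p S0 a H⟩, fun ℓ hℓ hℓN hℓS => ?_⟩
  have h3 : (CuspForm.heckeAlgebra.T hℓ hℓN hℓS : CuspForm.heckeAlgebra N 2 S0) =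
      (Chi_phi N S0).toRingHom (FreeAlgebra.ι ℤ ⟨ℓ, hℓ, hℓN, hℓS⟩) := by
    rw [AlgHom.toRingHom_eq_coe, RingHom.coe_coe, Chi_phi, FreeAlgebra.lift_ι_apply]
  rw [h3, RingHom.liftOfRightInverse_comp_apply, Chi_psi_apply, FreeAlgebra.lift_ι_apply]

end Fermat.Agent.LP.Old
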