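import Fermat.Agent.LP.Old.Canon
import Fermat.Agent.S17.DIV.Export

/-!
# LP-OLD, file 11: divisibility of the group of divisor classes of degree `0`
-/

set_option autoImplicit false
set_option synthInstance.maxHeartbeats 400000

noncomputable section

namespace Fermat.Agent.LP.Old

open AlgebraicCurve ModularCurve Fermat.Agent.GR Fermat.Agent.GR.S Fermat.Agent.S17.FF
open Fermat.Agent.S17.WMW (Qb GQ FB gal)

theorem exists_nsmul_sub_mem_Pr (N : ℕ) [NeZero N] (Y : Divisor Qb (FB N)) (hY : Y ∈ Dv0 N)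
    (n : ℕ) (hn : 0 < n) : ∃ B ∈ Dv0 N, n • B - Y ∈ Pr N := by
  obtain ⟨y, hy⟩ := Fermat.Agent.S17.DIV.exists_nsmul_eq N hn
    (Pic0.mk (⟨Y, hY⟩ : Divisor.degZero (K := Qb) (F := FB N)) : JZero N)
  obtain ⟨B, rfl⟩ := Pic0.mk_surjective y
  have h1 : (n • (Pic0.mk B : JZero N)) = Pic0.mk (n • B) := rfl
  rw [h1, Fermat.Agent.S17.WMW.mk_eq_mk_iff] at hy
  obtain ⟨f, hf, hfv⟩ := hy
  refine ⟨(B : Divisor Qb (FB N)), B.2, (mem_Pr_iff N _).mpr ⟨f, hf, ?_⟩⟩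
  refine Finsupp.ext fun v => ?_
  rw [divf_apply, ← hfv v]
  rfl

end Fermat.Agent.LP.Old
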