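import Fermat.Agent.LP.Old.Main
import Fermat.Agent.LP.Old.Chi
import Fermat.Agent.GR.I.CharTheoryMk
import Fermat.Agent.GR.I.Build

/-!
# LP-OLD, file 14: the export, in the language of `FF ℚ̄ N` and `q`-expansions
-/

set_option autoImplicit false
set_option synthInstance.maxHeartbeats 400000

noncomputable section

namespace Fermat.Agent.LP.Old

open AlgebraicCurve ModularCurve Fermat.Agent.GR Fermat.Agent.GR.S Fermat.Agent.S17.FF
open Fermat.Agent.S17.WMW (Qb GQ FB gal)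

theorem Export_PD_aux (N : ℕ) (p : ℕ) (E : IntermediateField Qb (LaurentSeries Qb))
    (hE : E = FF Qb N) (𝒪 : ValuationSubring (FF Qb N)) (U : FF Qb N)
    (PD : ∀ V : ValuationSubring (FF Qb N), V ≤ 𝒪 → ∃ c : FF Qb N, c ≠ 0 ∧ c ^ p * U ∈ V ∧
      (c ^ p * U)⁻¹ ∈ V) (u : E) (hu : (u : LaurentSeries Qb) = (U : LaurentSeries Qb)) :
    ∀ V : ValuationSubring E,
      V ≤ 𝒪.comap (IntermediateField.equivOfEq hE).toRingEquiv.toRingHom →
      ∃ c : E, c ≠ 0 ∧ c ^ p * u ∈ V ∧ (c ^ p * u)⁻¹ ∈ V := by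
  subst hE
  have hcomap : 𝒪.comap (IntermediateField.equivOfEq
      (rfl : FF Qb N = FF Qb N)).toRingEquiv.toRingHom = 𝒪 := by
    ext x
    rw [ValuationSubring.mem_comap]
    have hx : (IntermediateField.equivOfEq
        (rfl : FF Qb N = FF Qb N)).toRingEquiv.toRingHom x = x := by
      rw [IntermediateField.equivOfEq_rfl]
      rfl
    rw [hx]
  rw [hcomap]
  obtain rfl : u = U := Subtype.ext hu
  exact PD

/-- transport of the hypothesis (PD) from `FF ℚ̄ N` to `FB N`. -/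
theorem Export_PD (N : ℕ) (p : ℕ) (𝒪 : ValuationSubring (FF Qb N)) (U : FF Qb N)
    (PD : ∀ V : ValuationSubring (FF Qb N), V ≤ 𝒪 → ∃ c : FF Qb N, c ≠ 0 ∧ c ^ p * U ∈ V ∧
      (c ^ p * U)⁻¹ ∈ V) (u : FB N) (hu : (u : LaurentSeries Qb) = (U : LaurentSeries Qb)) :
    ∀ V : ValuationSubring (FB N), V ≤ toBar N 𝒪 → ∃ c : FB N, c ≠ 0 ∧ c ^ p * u ∈ V ∧
      (c ^ p * u)⁻¹ ∈ V := by
  exact Export_PD_aux N p (FB N) (bar_eq_FF N) 𝒪 U PD u hu

/-- **LP-OLD.**  Level `N` prime to `p ≥ 5`.  A function `U` on `X₀(N)` over `ℚ̄` which is, at every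
point of the fibre at `A`, a unit times a `p`-th power, whose class is not trivial at the Gauss
valuation and which is an eigenvector of the `T_ℓ` modulo the classes which are trivial at the Gauss
valuation, defines a character of the Hecke algebra of level `N`. -/
theorem old_core (N : ℕ) [NeZero N] (p : ℕ) (hp : p.Prime) (h5 : 5 ≤ p) (hpN : ¬ p ∣ N)
    (A : ValuationSubring Qb) (hA : A.LiesOverPrime p) (S0 : Set ℕ) (hpS : p ∈ S0)
    (hS0 : ∀ q : ℕ, q.Prime → q ∣ N → q ∈ S0) (a : ℕ → ℤ)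
    (𝒪 : ValuationSubring (FF Qb N)) (h𝒪 : R.IsGaussRing A N 𝒪) (U : FF Qb N) (hU : U ≠ 0)
    (PD : ∀ V : ValuationSubring (FF Qb N), V ≤ 𝒪 → ∃ c : FF Qb N, c ≠ 0 ∧ c ^ p * U ∈ V ∧
      (c ^ p * U)⁻¹ ∈ V)
    (NT : ¬ GS.TrivAt N p A (U : LaurentSeries Qb))
    (EIG : ∀ (ℓ : ℕ) [NeZero ℓ], ℓ.Prime → ¬ ℓ ∣ N → ℓ ∉ S0 → ∃ ζ : Qbˣ, IsPrimitiveRoot ζ ℓ ∧
      GS.TrivAt N p A (heckeMulT ℓ ζ (U : LaurentSeries Qb) * ((U : LaurentSeries Qb) ^ (a ℓ))⁻¹)) :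
    ∃ χ : CuspForm.heckeAlgebra N 2 S0 →+* ZMod p,
      ∀ (ℓ : ℕ) (hℓ : ℓ.Prime) (hℓN : ¬ ℓ ∣ N) (hℓS : ℓ ∉ S0),
        χ (CuspForm.heckeAlgebra.T hℓ hℓN hℓS) = (a ℓ : ZMod p) := by
  obtain ⟨h, RD⟩ := exists_redData N p hp h5 hpN A hA 𝒪 h𝒪
  have hmem : (U : LaurentSeries Qb) ∈ FB N := by
    rw [show FB N = FF Qb N from bar_eq_FF N]
    exact U.2
  have hu0 : (⟨(U : LaurentSeries Qb), hmem⟩ : FB N) ≠ 0 := by
    intro h0
    have h1 : (U : LaurentSeries Qb) = 0 :=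
      congrArg (fun x : FB N => (x : LaurentSeries Qb)) h0
    exact hU (Subtype.ext h1)
  obtain ⟨uu, huu⟩ : ∃ uu : (FB N)ˣ, ((uu : FB N) : LaurentSeries Qb) = (U : LaurentSeries Qb) :=
    ⟨Units.mk0 _ hu0, rfl⟩
  let ι : Qb →+* ℂ := (IsAlgClosed.lift (R := ℚ) (S := Qb) (M := ℂ)).toRingHom
  have NT' : Additive.ofMul uu ∉ trivSub p (toBar N 𝒪) := by
    intro hh
    apply NT
    rw [← huu]
    exact (trivAt_iff RD p uu).2 hh
  have EIG' : ∀ i : Idx N S0, TM N S0 i (Additive.ofMul uu) - a i.1 • Additive.ofMul uu ∈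
      trivSub p (toBar N 𝒪) := by
    intro i
    obtain ⟨ζ, hζ, hT⟩ := EIG i.1 i.2.1 i.2.2.1 i.2.2.2
    have e1 : TM N S0 i (Additive.ofMul uu) - a i.1 • Additive.ofMul uu =
        Additive.ofMul (Tfun N i.1 uu * (uu ^ (a i.1))⁻¹) := by
      rw [ofMul_mul, ofMul_inv, ofMul_zpow, sub_eq_add_neg]
      rfl
    rw [e1, ← trivAt_iff RD p]
    have e2 : (((Tfun N i.1 uu * (uu ^ (a i.1))⁻¹ : (FB N)ˣ) : FB N) : LaurentSeries Qb) =
        heckeMulT i.1 ζ (U : LaurentSeries Qb) * ((U : LaurentSeries Qb) ^ (a i.1))⁻¹ := by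
      rw [Units.val_mul, Units.val_inv_eq_inv_val, Units.val_zpow_eq_zpow_val]
      have h1 : ((((Tfun N i.1 uu : (FB N)ˣ) : FB N) * ((uu : FB N) ^ (a i.1))⁻¹ : FB N) :
          LaurentSeries Qb) = (((Tfun N i.1 uu : (FB N)ˣ) : FB N) : LaurentSeries Qb) *
            (((uu : FB N) : LaurentSeries Qb) ^ (a i.1))⁻¹ := by
        have h2 := map_mul (FB N).val ((Tfun N i.1 uu : (FB N)ˣ) : FB N) ((uu : FB N) ^ (a i.1))⁻¹
        rw [map_inv₀, map_zpow₀] at h2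
        exact h2
      rw [h1, coe_Tfun N i.1 i.2.1 i.2.2.1 ζ hζ, huu]
    rw [e2]
    exact hT
  have H := old_core_bar RD hp hA hpS ((GR.I.charTheory N).toKummerData ι)
    (fun i : Idx N S0 => a i.1) (Additive.ofMul uu) (Export_PD N p 𝒪 U PD (uu : FB N) huu) NT' EIG'
  exact exists_chi N p S0 hS0 a H

end Fermat.Agent.LP.Old
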