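import Fermat.Agent.GR.Defs
import Fermat.Agent.S17.WMW.Setup

/-!
# LP-OLD, file 6: elements of bounded degree of a valuation ring of `ℚ̄` have finitely many residues
-/

set_option autoImplicit false

noncomputable section

namespace Fermat.Agent.LP.Old

open Fermat.Agent.S17.WMW (Qb GQ)

/-- an element with at most `g` conjugates over `L` has degree at most `g [L : ℚ]` over `ℚ`. -/
theorem FinRes_degree (L : IntermediateField ℚ Qb) [FiniteDimensional ℚ L] (g : ℕ) (a : Qb)
    (T : Finset Qb) (hT : T.card ≤ g) (ha : a ∈ T)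
    (hstab : ∀ τ ∈ L.fixingSubgroup, ∀ b ∈ T, τ b ∈ T) :
    (minpoly ℚ a).natDegree ≤ g * Module.finrank ℚ L := by
  classical
  have halg : Algebra.IsAlgebraic ℚ Qb := AlgebraicClosure.isAlgebraic ℚ
  have hcl : IsAlgClosure ℚ Qb := ⟨inferInstance, halg⟩
  have hnor : Normal ℚ Qb := IsAlgClosure.normal ℚ Qb
  have hgal : IsGalois ℚ Qb := ⟨⟩
  -- the polynomial with roots `T`
  set f : Polynomial Qb := ∏ b ∈ T, (Polynomial.X - Polynomial.C b) with hf
  have hfmonic : f.Monic := Polynomial.monic_prod_of_monic _ _ fun b _ => Polynomial.monic_X_sub_C b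
  have hfdeg : f.natDegree = T.card := by
    rw [hf, Polynomial.natDegree_prod_of_monic _ _ fun b _ => Polynomial.monic_X_sub_C b]
    simp
  have hfix : ∀ τ ∈ L.fixingSubgroup, f.map (τ : Qb →+* Qb) = f := by
    intro τ hτ
    have himg : T.image τ = T := by
      apply Finset.eq_of_subset_of_card_le
      · intro x hx
        obtain ⟨b, hb, rfl⟩ := Finset.mem_image.1 hx
        exact hstab τ hτ b hb
      · rw [Finset.card_image_of_injective _ τ.injective]
    rw [hf, Polynomial.map_prod]
    conv_rhs => rw [← himg]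
    rw [Finset.prod_image fun x _ y _ hxy => τ.injective hxy]
    refine Finset.prod_congr rfl fun b _ => ?_
    rw [Polynomial.map_sub, Polynomial.map_X, Polynomial.map_C]
    rfl
  have hlift : f ∈ Polynomial.lifts (algebraMap L Qb) := by
    rw [Polynomial.lifts_iff_coeff_lifts]
    intro n
    have hmem : f.coeff n ∈ IntermediateField.fixedField L.fixingSubgroup := by
      rw [IntermediateField.mem_fixedField_iff]
      intro τ hτ
      have := congrArg (fun P : Polynomial Qb => P.coeff n) (hfix τ hτ)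
      simpa [Polynomial.coeff_map] using this
    rw [InfiniteGalois.fixedField_fixingSubgroup] at hmem
    exact ⟨⟨_, hmem⟩, rfl⟩
  obtain ⟨F, hFmap, hFdeg, hFmonic⟩ := Polynomial.lifts_and_natDegree_eq_and_monic hlift hfmonic
  have hroot : Polynomial.aeval a F = 0 := by
    rw [Polynomial.aeval_def, ← Polynomial.eval_map, hFmap, hf, Polynomial.eval_prod]
    exact Finset.prod_eq_zero ha (by simp)
  have hintL : IsIntegral L a := ⟨F, hFmonic, hroot⟩
  have h1 : (minpoly L a).natDegree ≤ g := by
    have := Polynomial.natDegree_le_of_dvd (minpoly.dvd L a hroot) hFmonic.ne_zero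
    rw [hFdeg, hfdeg] at this
    exact this.trans hT
  have hfd1 : FiniteDimensional L (IntermediateField.adjoin L {a}) :=
    IntermediateField.adjoin.finiteDimensional hintL
  have hfd2 : FiniteDimensional ℚ (IntermediateField.adjoin L {a}) :=
    FiniteDimensional.trans ℚ L _
  have h2 : (minpoly ℚ (IntermediateField.AdjoinSimple.gen L a)).natDegree ≤
      Module.finrank ℚ (IntermediateField.adjoin L {a}) := minpoly.natDegree_le _
  have h3 : minpoly ℚ (IntermediateField.AdjoinSimple.gen L a) = minpoly ℚ a := by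
    have := minpoly.algebraMap_eq (A := ℚ) (B := IntermediateField.adjoin L {a}) (B' := Qb)
      (algebraMap (IntermediateField.adjoin L {a}) Qb).injective
      (IntermediateField.AdjoinSimple.gen L a)
    rw [← this]
    rfl
  rw [h3, ← Module.finrank_mul_finrank ℚ L, IntermediateField.adjoin.finrank hintL] at h2
  calc (minpoly ℚ a).natDegree ≤ Module.finrank ℚ L * (minpoly L a).natDegree := h2
    _ ≤ Module.finrank ℚ L * g := Nat.mul_le_mul_left _ h1
    _ = g * Module.finrank ℚ L := mul_comm _ _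

/-- the residues of the elements of `A` of degree `≤ n` over `ℚ` are roots of finitely many
polynomials. -/
theorem FinRes_of_degree (A : ValuationSubring Qb) (p : ℕ) (hp : p.Prime) (hA : A.LiesOverPrime p)
    (n : ℕ) : ∃ Z : Finset Qb, (∀ z ∈ Z, z ∈ A) ∧
      ∀ a ∈ A, (minpoly ℚ a).natDegree ≤ n → ∃ z ∈ Z, a - z ∈ A.nonunits := by
  classical
  have : Fact p.Prime := ⟨hp⟩
  have halg : Algebra.IsAlgebraic ℚ Qb := AlgebraicClosure.isAlgebraic ℚ
  -- the residue field has characteristic `p`
  have hp0 : ((p : ℕ) : IsLocalRing.ResidueField A) = 0 := by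
    obtain ⟨hpA, hpm⟩ := ValuationSubring.mem_nonunits_iff_exists_mem_maximalIdeal.1 hA
    have h1 : IsLocalRing.residue A ⟨(p : Qb), hpA⟩ = 0 :=
      (IsLocalRing.residue_eq_zero_iff _).2 hpm
    have h2 : (⟨(p : Qb), hpA⟩ : A) = ((p : ℕ) : A) := Subtype.ext (by simp)
    rw [h2, map_natCast] at h1
    exact h1
  have hchar : CharP (IsLocalRing.ResidueField A) p := by
    have := ringChar.charP (IsLocalRing.ResidueField A)
    rwa [CharP.ringChar_of_prime_eq_zero hp hp0] at this
  letI : Algebra (ZMod p) (IsLocalRing.ResidueField A) := ZMod.algebra _ p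
  -- the finite set of residues
  have hfinQ : Finite (Polynomial.degreeLT (ZMod p) (n + 1)) :=
    Finite.of_equiv _ (Polynomial.degreeLTEquiv (ZMod p) (n + 1)).symm.toEquiv
  have hfin : (⋃ Q : Polynomial.degreeLT (ZMod p) (n + 1),
      (Q : Polynomial (ZMod p)).rootSet (IsLocalRing.ResidueField A)).Finite :=
    Set.finite_iUnion fun Q => Polynomial.rootSet_finite _ _
  have hsurj : Function.Surjective (IsLocalRing.residue A) := IsLocalRing.residue_surjective
  refine ⟨hfin.toFinset.image fun x => ((Function.surjInv hsurj x : A) : Qb), ?_, ?_⟩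
  · intro z hz
    obtain ⟨x, -, rfl⟩ := Finset.mem_image.1 hz
    exact (Function.surjInv hsurj x).2
  intro a ha hdeg
  -- a primitive integral polynomial killing `a`
  have hint : IsIntegral ℚ a := (halg.isAlgebraic a).isIntegral
  set P0 : Polynomial ℤ := IsLocalization.integerNormalization (nonZeroDivisors ℤ) (minpoly ℚ a)
    with hP0
  have hP0ne : P0 ≠ 0 := by
    rw [hP0, Ne, IsFractionRing.integerNormalization_eq_zero_iff]
    exact minpoly.ne_zero hint
  have hP0root : Polynomial.aeval a P0 = 0 :=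
    IsLocalization.integerNormalization_aeval_eq_zero _ _ (minpoly.aeval ℚ a)
  have hP0deg : P0.natDegree ≤ n := by
    obtain ⟨b, hb⟩ := IsLocalization.integerNormalization_map_to_map (nonZeroDivisors ℤ)
      (minpoly ℚ a)
    have h1 : (P0.map (algebraMap ℤ ℚ)).natDegree = P0.natDegree :=
      Polynomial.natDegree_map_eq_of_injective (algebraMap ℤ ℚ).injective_int _
    rw [← h1, hP0, hb]
    exact (Polynomial.natDegree_smul_le _ _).trans hdeg
  set P : Polynomial ℤ := P0.primPart with hP
  have hPprim : P.IsPrimitive := P0.isPrimitive_primPart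
  have hProot : Polynomial.aeval a P = 0 := Polynomial.aeval_primPart_eq_zero hP0ne hP0root
  have hPdeg : P.natDegree ≤ n := by rw [hP, Polynomial.natDegree_primPart]; exact hP0deg
  -- its reduction
  set Q : Polynomial (ZMod p) := P.map (Int.castRingHom (ZMod p)) with hQ
  have hQne : Q ≠ 0 := by
    intro h0
    have hdvd : Polynomial.C (p : ℤ) ∣ P := by
      rw [Polynomial.C_dvd_iff_dvd_coeff]
      intro i
      have := congrArg (fun R : Polynomial (ZMod p) => R.coeff i) h0
      simp only [hQ, Polynomial.coeff_map, Polynomial.coeff_zero, eq_intCast] at this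
      exact (ZMod.intCast_zmod_eq_zero_iff_dvd _ _).1 this
    have hu := hPprim _ hdvd
    rw [Int.isUnit_iff] at hu
    have := hp.two_le
    omega
  have hQmem : Q ∈ Polynomial.degreeLT (ZMod p) (n + 1) := by
    rw [Polynomial.mem_degreeLT]
    refine lt_of_le_of_lt Polynomial.degree_le_natDegree ?_
    have : Q.natDegree ≤ n := (Polynomial.natDegree_map_le).trans hPdeg
    exact_mod_cast Nat.lt_succ_of_le this
  have hrootA : Polynomial.eval₂ (Int.castRingHom A) (⟨a, ha⟩ : A) P = 0 := by
    apply Subtype.ext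
    have h1 := Polynomial.hom_eval₂ P (Int.castRingHom A) A.subtype (⟨a, ha⟩ : A)
    have h2 : (A.subtype.comp (Int.castRingHom A)) = algebraMap ℤ Qb := RingHom.ext_int _ _
    rw [h2] at h1
    have h3 : Polynomial.eval₂ (algebraMap ℤ Qb) (A.subtype ⟨a, ha⟩) P = 0 := hProot
    rw [h3] at h1
    exact h1
  have hrootk : Polynomial.aeval (IsLocalRing.residue A ⟨a, ha⟩) Q = 0 := by
    rw [Polynomial.aeval_def, hQ, Polynomial.eval₂_map]
    have h1 := Polynomial.hom_eval₂ P (Int.castRingHom A) (IsLocalRing.residue A) (⟨a, ha⟩ : A)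
    rw [hrootA, map_zero] at h1
    rw [RingHom.ext_int ((algebraMap (ZMod p) (IsLocalRing.ResidueField A)).comp
      (Int.castRingHom (ZMod p))) ((IsLocalRing.residue A).comp (Int.castRingHom A))]
    exact h1.symm
  refine ⟨_, Finset.mem_image.2 ⟨IsLocalRing.residue A ⟨a, ha⟩, ?_, rfl⟩, ?_⟩
  · rw [Set.Finite.mem_toFinset, Set.mem_iUnion]
    exact ⟨⟨Q, hQmem⟩, Polynomial.mem_rootSet.2 ⟨hQne, hrootk⟩⟩
  · rw [ValuationSubring.mem_nonunits_iff_exists_mem_maximalIdeal]
    refine ⟨A.sub_mem ha (Function.surjInv hsurj _).2, ?_⟩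
    rw [← IsLocalRing.residue_eq_zero_iff]
    have h1 : (⟨a - ((Function.surjInv hsurj (IsLocalRing.residue A ⟨a, ha⟩) : A) : Qb),
        A.sub_mem ha (Function.surjInv hsurj _).2⟩ : A) =
        ⟨a, ha⟩ - Function.surjInv hsurj (IsLocalRing.residue A ⟨a, ha⟩) := rfl
    rw [h1, map_sub, Function.surjInv_eq hsurj, sub_self]

theorem finite_residues (A : ValuationSubring Qb) (p : ℕ) (hp : p.Prime) (hA : A.LiesOverPrime p)
    (L : IntermediateField ℚ Qb) [FiniteDimensional ℚ L] (g : ℕ) :
    ∃ Z : Finset Qb, (∀ z ∈ Z, z ∈ A) ∧ ∀ a ∈ A,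
      (∃ T : Finset Qb, T.card ≤ g ∧ a ∈ T ∧ ∀ τ ∈ L.fixingSubgroup, ∀ b ∈ T, τ b ∈ T) →
      ∃ z ∈ Z, a - z ∈ A.nonunits := by
  obtain ⟨Z, hZ, h⟩ := FinRes_of_degree A p hp hA (g * Module.finrank ℚ L)
  refine ⟨Z, hZ, fun a ha ⟨T, hT, haT, hstab⟩ => h a ha (FinRes_degree L g a T hT haT hstab)⟩

end Fermat.Agent.LP.Old
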