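import Fermat.Agent.LP.Old.Red
import Fermat.Agent.LP.Old.FinRes
import Fermat.Agent.GR.S.R.EZ2
import Fermat.Agent.GR.S.R.Semi

/-!
# LP-OLD, file 7: the points of bounded degree have finitely many reductions
-/

set_option autoImplicit false
set_option synthInstance.maxHeartbeats 400000

noncomputable section

namespace Fermat.Agent.LP.Old

open AlgebraicCurve ModularCurve Fermat.Agent.GR Fermat.Agent.GR.S Fermat.Agent.S17.FF
open Fermat.Agent.S17.WMW (Qb GQ FB gal)

section abstract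

variable {Ω F : Type} [Field Ω] [IsAlgClosed Ω] [CharZero Ω] [Field F] [Algebra Ω F] [IsFF Ω F]
  {A : ValuationSubring Ω} {𝒪 : ValuationSubring F} {x : F}

/-- (FIN-2) the fibre of the special fibre of a chart over a point of the `x`-line is finite. -/
theorem FinFib_fibre (G : R.GaussData A 𝒪) (hC : R.RChart A 𝒪 x) {z : Ω} (hz : z ∈ A) :
    {s : Set F | ∃ P : Place Ω F, R.Dom A x P ∧ val P x - z ∈ A.nonunits ∧
      R.ker A x P = s}.Finite := by
  set y : F := x - algebraMap Ω F z with hy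
  have hyn : y ∉ 𝒪.nonunits := R.RChart.nonconst G hC hz
  have hy0 : y ≠ 0 := by
    intro h0
    exact hyn (by rw [h0]; exact R.Dom_zero_mem_nonunits 𝒪)
  refine ((finite_zeros' (K := Ω) y).image (fun P => R.ker A x P)).subset ?_
  rintro s ⟨P, hP, hv, rfl⟩
  have hyk : y ∈ R.ker A x P := by
    refine ⟨sub_mem R.self_mem_chart (R.algebraMap_mem_chart hz), ?_⟩
    have h1 : x - algebraMap Ω F z = x + algebraMap Ω F (-z) := by
      rw [map_neg, ← sub_eq_add_neg]
    rw [hy, h1, val_add P hP.1 (le_of_eq (Fermat.Agent.S24.Zeros.ord_algebraMap P _).symm), val_algebraMap, ← sub_eq_add_neg]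
    exact hv
  obtain ⟨P', hP', hk, h0⟩ := R.exists_zero_of_mem_ker G hC hP hyk hyn
  refine ⟨P', ?_, hk⟩
  have h1 := (val_eq_zero_iff P' (R.ord_nonneg_of_mem_chart hP' hyk.1)).1 h0
  exact h1.resolve_left hy0

end abstract

variable {A : ValuationSubring Qb} {N : ℕ} [NeZero N] {𝒪 : ValuationSubring (FB N)} {h : FB N}

/-- the value of a function with rational coefficients at a conjugate point. -/
theorem FinFib_val_gal (x : FB N)
    (hx : ∀ σ : GQ, coeffMap (σ : Qb →+* Qb) (x : LaurentSeries Qb) = (x : LaurentSeries Qb))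
    (σ : GQ) (P : Place Qb (FB N)) :
    (gal N σ • P).ord x = P.ord x ∧ val (gal N σ • P) x = σ (val P x) := by
  have hgx : gal N σ • x = x :=
    Subtype.ext (by rw [Fermat.Agent.S17.WMW.coe_gal_smul]; exact hx σ)
  constructor
  · have := SemilinearAut.ord_smul (gal N σ) P x
    rwa [hgx] at this
  · have := R.val_smul (gal N σ) P x
    rw [hgx] at this
    rw [this]
    rfl

/-- (FIN-3) one chart. -/
theorem FinFib_chart (G : R.GaussData A 𝒪) {x : FB N} (hC : R.RChart A 𝒪 x)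
    (hx : ∀ σ : GQ, coeffMap (σ : Qb →+* Qb) (x : LaurentSeries Qb) = (x : LaurentSeries Qb))
    {p : ℕ} (hp : p.Prime) (hA : A.LiesOverPrime p)
    (L : IntermediateField ℚ Qb) [FiniteDimensional ℚ L] (g : ℕ) :
    {s : Set (FB N) | ∃ P : Place Qb (FB N), R.Dom A x P ∧ R.ker A x P = s ∧
      ∃ T : Finset (Place Qb (FB N)), T.card ≤ g ∧ P ∈ T ∧
        ∀ τ ∈ L.fixingSubgroup, ∀ Q ∈ T, gal N τ • Q ∈ T}.Finite := by
  classical
  obtain ⟨Z, hZ, hres⟩ := finite_residues A p hp hA L g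
  refine (Set.Finite.biUnion Z.finite_toSet
    (fun z hz => FinFib_fibre G hC (hZ z hz))).subset ?_
  rintro s ⟨P, hP, hk, T, hT, hPT, hstab⟩
  obtain ⟨z, hz, hza⟩ := hres (val P x) hP.2
    ⟨T.image (fun Q => val Q x), le_trans Finset.card_image_le hT,
      Finset.mem_image_of_mem _ hPT, by
        intro τ hτ b hb
        obtain ⟨Q, hQ, rfl⟩ := Finset.mem_image.1 hb
        rw [← (FinFib_val_gal x hx τ Q).2]
        exact Finset.mem_image_of_mem _ (hstab τ hτ Q hQ)⟩
  exact Set.mem_biUnion (show z ∈ (Z : Set Qb) from hz) ⟨P, hP, hza, hk⟩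

/-- (FIN) the points with at most `g` conjugates over `L` have finitely many reductions. -/
theorem finite_red_orbit (RD : RedData A (FB N) 𝒪 h) {p : ℕ} (hp : p.Prime)
    (hA : A.LiesOverPrime p) (L : IntermediateField ℚ Qb) [FiniteDimensional ℚ L] (g : ℕ) :
    {s : Set (FB N) ⊕ Set (FB N) | ∃ P : Place Qb (FB N), R.red A h P = s ∧
      ∃ T : Finset (Place Qb (FB N)), T.card ≤ g ∧ P ∈ T ∧
        ∀ τ ∈ L.fixingSubgroup, ∀ Q ∈ T, gal N τ • Q ∈ T}.Finite := by
  classical
  have hinv : ∀ σ : GQ, coeffMap (σ : Qb →+* Qb) ((h⁻¹ : FB N) : LaurentSeries Qb)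
      = ((h⁻¹ : FB N) : LaurentSeries Qb) := by
    intro σ
    rw [IntermediateField.coe_inv, map_inv₀, RD.rat σ]
  refine (((FinFib_chart RD.gauss RD.c0 RD.rat hp hA L g).image Sum.inl).union
    ((FinFib_chart RD.gauss RD.c1 hinv hp hA L g).image Sum.inr)).subset ?_
  rintro s ⟨P, rfl, hT⟩
  by_cases hD : R.Dom A h P
  · left
    refine ⟨R.ker A h P, ⟨P, hD, rfl, hT⟩, ?_⟩
    unfold R.red
    rw [if_pos hD]
  · right
    refine ⟨R.ker A h⁻¹ P, ⟨P, (R.dom_inv_of_not_dom RD.ne_zero hD).1, rfl, hT⟩, ?_⟩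
    unfold R.red
    rw [if_neg hD]

end Fermat.Agent.LP.Old
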