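import Mathlib

/-!
# LP-OLD, file 2: noncommutative polynomials in a family of endomorphisms of an abelian group

`act T t` is the endomorphism `t(T)` for `t : FreeAlgebra ℤ ι` and `T : ι → X →+ X`.
(We use the free algebra in order not to have to prove that the Hecke correspondences commute.)
-/

set_option autoImplicit false

namespace Fermat.Agent.LP.Old

variable {ι : Type*}

/-- `t ↦ t(T)`. -/
noncomputable def act {X : Type*} [AddCommGroup X] (T : ι → X →+ X) :
    FreeAlgebra ℤ ι →ₐ[ℤ] AddMonoid.End X :=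
  FreeAlgebra.lift ℤ (fun i => (T i : AddMonoid.End X))

theorem act_ι {X : Type*} [AddCommGroup X] (T : ι → X →+ X) (i : ι) (x : X) :
    act T (FreeAlgebra.ι ℤ i) x = T i x := by
  have h : act T (FreeAlgebra.ι ℤ i) = (T i : AddMonoid.End X) :=
    FreeAlgebra.lift_ι_apply (R := ℤ) (A := AddMonoid.End X) (fun i => T i) i
  rw [h]
  rfl

theorem act_add {X : Type*} [AddCommGroup X] (T : ι → X →+ X) (s t : FreeAlgebra ℤ ι) (x : X) :
    act T (s + t) x = act T s x + act T t x := by
  rw [map_add]
  rfl

theorem act_mul {X : Type*} [AddCommGroup X] (T : ι → X →+ X) (s t : FreeAlgebra ℤ ι) (x : X) :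
    act T (s * t) x = act T s (act T t x) := by
  rw [map_mul]
  rfl

theorem act_algebraMap {X : Type*} [AddCommGroup X] (T : ι → X →+ X) (n : ℤ) (x : X) :
    act T (algebraMap ℤ (FreeAlgebra ℤ ι) n) x = n • x := by
  rw [AlgHom.commutes]
  exact AddMonoid.End.intCast_apply n x

/-- a subgroup stable under all `T i` is stable under `t(T)`. -/
theorem act_mem {X : Type*} [AddCommGroup X] (T : ι → X →+ X) (W : AddSubgroup X)
    (hW : ∀ i, ∀ x ∈ W, T i x ∈ W) (t : FreeAlgebra ℤ ι) {x : X} (hx : x ∈ W) :
    act T t x ∈ W := by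
  induction t using FreeAlgebra.induction generalizing x with
  | grade0 n =>
    rw [act_algebraMap]
    exact W.zsmul_mem hx n
  | grade1 i =>
    rw [act_ι]
    exact hW i x hx
  | mul s t hs ht =>
    rw [act_mul]
    exact hs (ht hx)
  | add s t hs ht =>
    rw [act_add]
    exact W.add_mem (hs hx) (ht hx)

/-- intertwining. -/
theorem act_map {X Y : Type*} [AddCommGroup X] [AddCommGroup Y] (T : ι → X →+ X)
    (T' : ι → Y →+ Y) (f : X →+ Y) (hf : ∀ i x, f (T i x) = T' i (f x)) (t : FreeAlgebra ℤ ι)
    (x : X) : f (act T t x) = act T' t (f x) := by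
  induction t using FreeAlgebra.induction generalizing x with
  | grade0 n =>
    rw [act_algebraMap, act_algebraMap, map_zsmul]
  | grade1 i =>
    rw [act_ι, act_ι, hf]
  | mul s t hs ht =>
    rw [act_mul, act_mul, hs, ht]
  | add s t hs ht =>
    rw [act_add, act_add, map_add, hs, ht]

/-- commutation with a group action. -/
theorem act_smul {X G : Type*} [AddCommGroup X] [Group G] [DistribMulAction G X]
    (T : ι → X →+ X) (hT : ∀ i (g : G) x, T i (g • x) = g • T i x) (t : FreeAlgebra ℤ ι) (g : G)
    (x : X) : act T t (g • x) = g • act T t x := by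
  induction t using FreeAlgebra.induction generalizing x with
  | grade0 n =>
    rw [act_algebraMap, act_algebraMap, smul_comm]
  | grade1 i =>
    rw [act_ι, act_ι, hT]
  | mul s t hs ht =>
    rw [act_mul, act_mul, ht, hs]
  | add s t hs ht =>
    rw [act_add, act_add, hs, ht, smul_add]

/-- an eigenvector modulo a stable subgroup. -/
theorem act_eigen {X : Type*} [AddCommGroup X] (T : ι → X →+ X) (W : AddSubgroup X)
    (hW : ∀ i, ∀ x ∈ W, T i x ∈ W) (a : ι → ℤ) (x : X) (hx : ∀ i, T i x - a i • x ∈ W)
    (t : FreeAlgebra ℤ ι) : act T t x - (FreeAlgebra.lift ℤ a t) • x ∈ W := by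
  induction t using FreeAlgebra.induction with
  | grade0 n =>
    rw [act_algebraMap, AlgHom.commutes]
    simp
  | grade1 i =>
    rw [act_ι, FreeAlgebra.lift_ι_apply]
    exact hx i
  | mul s t hs ht =>
    have h1 := act_mem T W hW s ht
    have h2 := W.zsmul_mem hs (FreeAlgebra.lift ℤ a t)
    have e : act T (s * t) x - (FreeAlgebra.lift ℤ a (s * t)) • x
        = act T s (act T t x - (FreeAlgebra.lift ℤ a t) • x)
          + (FreeAlgebra.lift ℤ a t) • (act T s x - (FreeAlgebra.lift ℤ a s) • x) := by
      rw [act_mul, map_mul, map_sub, map_zsmul, smul_sub, smul_smul,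
        mul_comm (FreeAlgebra.lift ℤ a t)]
      abel
    rw [e]
    exact W.add_mem h1 h2
  | add s t hs ht =>
    have e : act T (s + t) x - (FreeAlgebra.lift ℤ a (s + t)) • x
        = (act T s x - (FreeAlgebra.lift ℤ a s) • x)
          + (act T t x - (FreeAlgebra.lift ℤ a t) • x) := by
      rw [act_add, map_add, add_smul]
      abel
    rw [e]
    exact W.add_mem hs ht

/-- compatibility with the action of a ring through a relation `Rel x y`
(`x` = Kummer function, `y` = its class in a lattice). -/
theorem act_rel {X Y 𝕋 : Type*} [AddCommGroup X] [AddCommGroup Y] [Ring 𝕋]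
    (T : ι → X →+ X) (τ : ι → 𝕋) (hecke : 𝕋 →+* Module.End ℤ Y) (Rel : X → Y → Prop)
    (hzero : Rel 0 0) (hadd : ∀ x x' y y', Rel x y → Rel x' y' → Rel (x + x') (y + y'))
    (hneg : ∀ x y, Rel x y → Rel (-x) (-y))
    (hT : ∀ i x y, Rel x y → Rel (T i x) (hecke (τ i) y)) (t : FreeAlgebra ℤ ι) {x : X} {y : Y}
    (h : Rel x y) : Rel (act T t x) (hecke (FreeAlgebra.lift ℤ τ t) y) := by
  have hnat : ∀ (n : ℕ) (x : X) (y : Y), Rel x y → Rel (n • x) (n • y) := by
    intro n x y h
    induction n with
    | zero => simpa using hzero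
    | succ n ih =>
      rw [succ_nsmul, succ_nsmul]
      exact hadd _ _ _ _ ih h
  have hint : ∀ (n : ℤ) (x : X) (y : Y), Rel x y → Rel (n • x) (n • y) := by
    intro n x y h
    obtain ⟨m, rfl | rfl⟩ := n.eq_nat_or_neg
    · rw [natCast_zsmul, natCast_zsmul]
      exact hnat m x y h
    · rw [neg_smul, neg_smul, natCast_zsmul, natCast_zsmul]
      exact hneg _ _ (hnat m x y h)
  induction t using FreeAlgebra.induction generalizing x y with
  | grade0 n =>
    rw [act_algebraMap, AlgHom.commutes]
    have e : hecke (algebraMap ℤ 𝕋 n) y = n • y := by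
      rw [eq_intCast, map_intCast]
      simp
    rw [e]
    exact hint n x y h
  | grade1 i =>
    rw [act_ι, FreeAlgebra.lift_ι_apply]
    exact hT i x y h
  | mul s t hs ht =>
    rw [act_mul, map_mul, map_mul]
    exact hs (ht h)
  | add s t hs ht =>
    rw [act_add, map_add, map_add]
    exact hadd _ _ _ _ (hs h) (ht h)

end Fermat.Agent.LP.Old
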