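import Fermat.Agent.GR.S.Hecke.Norm
import Fermat.Agent.GR.S.FF.GalPull
import Fermat.Agent.GR.S.FF.NormFormula
import Fermat.Agent.S17.WMW.Setup

/-!
# LP-OLD, file 3: the Hecke correspondence `T_ℓ` on divisors and on functions of `X₀(N)` over `ℚ̄`
-/

set_option autoImplicit false
set_option synthInstance.maxHeartbeats 400000

noncomputable section

namespace Fermat.Agent.LP.Old

open AlgebraicCurve ModularCurve Fermat.Agent.GR Fermat.Agent.GR.S Fermat.Agent.S17.FF
open Fermat.Agent.S17.WMW (Qb GQ FB gal)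

instance instIsFF (N : ℕ) [NeZero N] : IsFF Qb (FB N) := Fermat.Agent.S17.WMW.isFF_bar N

instance instHPD (N : ℕ) [NeZero N] : HasPrincipalDivisors Qb (FB N) :=
  hasPrincipalDivisors_of_isFF

variable (N ℓ : ℕ) [NeZero N] [NeZero ℓ]

/-- `T_ℓ = α_* β^*` on divisors. -/
def Tdiv : Divisor Qb (FB N) →+ Divisor Qb (FB N) :=
  (Divisor.pushforwardAlong (heckeAlphaBar Qb N ℓ) (isIntegral_along' _)).comp
    (Divisor.pullbackAlong (heckeBetaBar Qb N ℓ) (isIntegral_along' _))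

/-- `T_ℓ = N_α ∘ β` on functions. -/
def Tfun : (FB N)ˣ →* (FB N)ˣ :=
  Units.map ((letI := algebraAlong (heckeAlphaBar Qb N ℓ)
    (Algebra.norm (FB N) : FB (N * ℓ) →* FB N)).comp
      ((heckeBetaBar Qb N ℓ : FB N →+* FB (N * ℓ)) : FB N →* FB (N * ℓ)))

theorem Hecke_coe_Tfun (u : (FB N)ˣ) :
    ((Tfun N ℓ u : (FB N)ˣ) : FB N) =
      (letI := algebraAlong (heckeAlphaBar Qb N ℓ);
        Algebra.norm (FB N) (heckeBetaBar Qb N ℓ (u : FB N))) := rfl

theorem divf_Tfun (u : (FB N)ˣ) :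
    divf (K := Qb) ((Tfun N ℓ u : (FB N)ˣ) : FB N) = Tdiv N ℓ (divf (K := Qb) (u : FB N)) := by
  rw [Hecke_coe_Tfun, Tdiv, AddMonoidHom.comp_apply, pullbackAlong_divf,
    pushforwardAlong_divf _ _ _ ((map_ne_zero _).mpr u.ne_zero)]

theorem coe_Tfun (hℓ : ℓ.Prime) (hℓN : ¬ ℓ ∣ N) (ζ : Qbˣ) (hζ : IsPrimitiveRoot ζ ℓ)
    (u : (FB N)ˣ) :
    (((Tfun N ℓ u : (FB N)ˣ) : FB N) : LaurentSeries Qb) =
      heckeMulT ℓ ζ ((u : FB N) : LaurentSeries Qb) := by
  rw [Hecke_coe_Tfun]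
  exact norm_heckeBeta N ℓ hℓ hℓN ζ hζ (u : FB N)

theorem l1_Tdiv_le (D : Divisor Qb (FB N)) :
    l1 (Tdiv N ℓ D) ≤ finrankAlong Qb (heckeBetaBar Qb N ℓ) * l1 D := by
  rw [Tdiv, AddMonoidHom.comp_apply]
  exact (l1_pushforwardAlong_le _ _ _).trans (l1_pullbackAlong_le _ _ _)

theorem degree_Tdiv (D : Divisor Qb (FB N)) :
    Divisor.degree (Tdiv N ℓ D) = (finrankAlong Qb (heckeBetaBar Qb N ℓ) : ℤ) * Divisor.degree D := by
  rw [Tdiv, AddMonoidHom.comp_apply, Divisor.degree_pushforwardAlong,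
    Divisor.degree_pullbackAlong _ _ (fundamentalIdentityAlong _ _)]

/-- push forward of divisors commutes with semilinear automorphisms. -/
theorem Hecke_pushforwardAlong_smul {K F F' : Type*} [Field K] [IsAlgClosed K] [CharZero K]
    [Field F] [Algebra K F] [Field F'] [Algebra K F'] [IsFF K F] [IsFF K F']
    (φ : F →ₐ[K] F') (hφ : φ.toRingHom.IsIntegral) (g : SemilinearAut K F)
    (g' : SemilinearAut K F') (h : SemilinearAut.IntertwinesAlong φ.toRingHom g g')
    (D : Divisor K F') :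
    Divisor.pushforwardAlong φ hφ (g' • D) = g • Divisor.pushforwardAlong φ hφ D := by
  induction D using Finsupp.induction_linear with
  | zero =>
    rw [SemilinearAut.divisor_smul_def, Finsupp.mapDomain_zero, map_zero,
      SemilinearAut.divisor_smul_def, Finsupp.mapDomain_zero]
  | add D E hD hE =>
    rw [SemilinearAut.divisor_smul_def, Finsupp.mapDomain_add, map_add, map_add,
      SemilinearAut.divisor_smul_def g, Finsupp.mapDomain_add, ← SemilinearAut.divisor_smul_def,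
      ← SemilinearAut.divisor_smul_def, ← SemilinearAut.divisor_smul_def,
      ← SemilinearAut.divisor_smul_def, hD, hE]
  | single w n =>
    have e' : ∀ v : Place K F', (Finsupp.single v n : Divisor K F') = n • Finsupp.single v 1 := by
      intro v
      rw [Finsupp.smul_single, smul_eq_mul, mul_one]
    have e : ∀ v : Place K F, (Finsupp.single v n : Divisor K F) = n • Finsupp.single v 1 := by
      intro v
      rw [Finsupp.smul_single, smul_eq_mul, mul_one]
    rw [SemilinearAut.smul_single, e' (g' • w), e' w, map_zsmul, map_zsmul,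
      pushforwardAlong_single_one, pushforwardAlong_single_one, ← e, ← e,
      SemilinearAut.smul_single, restrictAlong_smul φ hφ g g' h]

theorem Hecke_intertwines_alpha (σ : GQ) :
    SemilinearAut.IntertwinesAlong (heckeAlphaBar Qb N ℓ).toRingHom (gal N σ) (gal (N * ℓ) σ) := by
  intro x
  apply Subtype.ext
  show ((gal (N * ℓ) σ • (heckeAlphaBar Qb N ℓ x) : FB (N * ℓ)) : LaurentSeries Qb) =
    ((heckeAlphaBar Qb N ℓ (gal N σ • x) : FB (N * ℓ)) : LaurentSeries Qb)
  rw [Fermat.Agent.S17.WMW.coe_gal_smul, coe_heckeAlphaBar, coe_heckeAlphaBar,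
    Fermat.Agent.S17.WMW.coe_gal_smul]

theorem Hecke_intertwines_beta (σ : GQ) :
    SemilinearAut.IntertwinesAlong (heckeBetaBar Qb N ℓ).toRingHom (gal N σ) (gal (N * ℓ) σ) := by
  intro x
  apply Subtype.ext
  show ((gal (N * ℓ) σ • (heckeBetaBar Qb N ℓ x) : FB (N * ℓ)) : LaurentSeries Qb) =
    ((heckeBetaBar Qb N ℓ (gal N σ • x) : FB (N * ℓ)) : LaurentSeries Qb)
  rw [Fermat.Agent.S17.WMW.coe_gal_smul, coe_heckeBetaBar, coe_heckeBetaBar,
    Fermat.Agent.S17.WMW.coe_gal_smul, coeffMap_qExpand]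

theorem Tdiv_smul (σ : GQ) (D : Divisor Qb (FB N)) :
    Tdiv N ℓ (gal N σ • D) = gal N σ • Tdiv N ℓ D := by
  rw [Tdiv, AddMonoidHom.comp_apply, AddMonoidHom.comp_apply,
    pullbackAlong_smul _ _ (gal N σ) (gal (N * ℓ) σ) (Hecke_intertwines_beta N ℓ σ),
    Hecke_pushforwardAlong_smul _ _ (gal N σ) (gal (N * ℓ) σ) (Hecke_intertwines_alpha N ℓ σ)]

/-- the divisor map as a homomorphism. -/
def dv : Additive (FB N)ˣ →+ Divisor Qb (FB N) :=
  AddMonoidHom.mk' (fun u => divf (K := Qb) ((Additive.toMul u : (FB N)ˣ) : FB N)) (by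
    intro a b
    exact divf_mul (Additive.toMul a).ne_zero (Additive.toMul b).ne_zero)

theorem dv_apply (u : Additive (FB N)ˣ) :
    dv N u = divf (K := Qb) ((Additive.toMul u : (FB N)ˣ) : FB N) := rfl

end Fermat.Agent.LP.Old
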