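import Fermat.Agent.GR.S.R.NF
import Fermat.Agent.GR.S.R.Dom2
import Fermat.Agent.GR.S.R.Cnt

/-!
# LP-OLD, file 10: local `p`-divisibility in terms of rank two valuations implies that the reduction
of the divisor is divisible by `p`
-/

set_option autoImplicit false

noncomputable section

namespace Fermat.Agent.LP.Old

open AlgebraicCurve Fermat.Agent.GR.E Fermat.Agent.GR.S Fermat.Agent.S17.FF

variable {Ω F : Type} [Field Ω] [IsAlgClosed Ω] [CharZero Ω] [Field F] [Algebra Ω F] [IsFF Ω F]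
  {A : ValuationSubring Ω} {𝒪 : ValuationSubring F} {x : F}

theorem Loc_zero_mem_ker (P₀ : Place Ω F) : (0 : F) ∈ R.ker A x P₀ := by
  have := R.algebraMap_mem_ker (A := A) (x := x) P₀ (a := 0) R.nu_zero
  rwa [map_zero] at this

/-- the subring `C + M` of `F`. -/
def Loc_B (G : R.GaussData A 𝒪) (hC : R.RChart A 𝒪 x) : Subring F where
  carrier := {z | ∃ c ∈ chart A ({x} : Set F), ∃ m ∈ 𝒪.nonunits, z = c + m}
  mul_mem' := by
    rintro _ _ ⟨c, hc, m, hm, rfl⟩ ⟨c', hc', m', hm', rfl⟩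
    refine ⟨c * c', mul_mem hc hc', c * m' + m * c' + m * m', ?_, by ring⟩
    exact R.nu_add (R.nu_add (R.nu_mul_left (R.mem_of_mem_chart G hC.mem hc) hm')
      (R.nu_mul_right hm (R.mem_of_mem_chart G hC.mem hc'))) (R.nu_mul_left (R.nu_mem hm) hm')
  one_mem' := ⟨1, one_mem _, 0, R.nu_zero, by ring⟩
  add_mem' := by
    rintro _ _ ⟨c, hc, m, hm, rfl⟩ ⟨c', hc', m', hm', rfl⟩
    exact ⟨c + c', add_mem hc hc', m + m', R.nu_add hm hm', by ring⟩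
  zero_mem' := ⟨0, zero_mem _, 0, R.nu_zero, by ring⟩
  neg_mem' := by
    rintro _ ⟨c, hc, m, hm, rfl⟩
    exact ⟨-c, neg_mem hc, -m, R.nu_neg hm, by ring⟩

/-- the ideal `n + M` of `C + M`. -/
def Loc_I (G : R.GaussData A 𝒪) (hC : R.RChart A 𝒪 x) {P₀ : Place Ω F} (hP₀ : R.Dom A x P₀) :
    Ideal (Loc_B G hC) where
  carrier := {z | ∃ c ∈ R.ker A x P₀, ∃ m ∈ 𝒪.nonunits, (z : F) = c + m}
  add_mem' := by
    rintro z z' ⟨c, hc, m, hm, h1⟩ ⟨c', hc', m', hm', h2⟩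
    refine ⟨c + c', R.add_mem_ker hP₀ hc hc', m + m', R.nu_add hm hm', ?_⟩
    rw [Subring.coe_add, h1, h2]
    ring
  zero_mem' := ⟨0, Loc_zero_mem_ker P₀, 0, R.nu_zero, by simp⟩
  smul_mem' := by
    rintro ⟨_, c, hc, m, hm, rfl⟩ z' ⟨c', hc', m', hm', h2⟩
    refine ⟨c * c', R.mul_mem_ker hP₀ hc hc', c * m' + m * c' + m * m', ?_, ?_⟩
    · exact R.nu_add (R.nu_add (R.nu_mul_left (R.mem_of_mem_chart G hC.mem hc) hm')
        (R.nu_mul_right hm (R.mem_of_mem_chart G hC.mem hc'.1))) (R.nu_mul_left (R.nu_mem hm) hm')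
    · rw [smul_eq_mul, Subring.coe_mul, h2]
      ring

theorem Loc_I_ne_top (G : R.GaussData A 𝒪) (hC : R.RChart A 𝒪 x) {P₀ : Place Ω F}
    (hP₀ : R.Dom A x P₀) : Loc_I G hC hP₀ ≠ ⊤ := by
  rw [Ideal.ne_top_iff_one]
  rintro ⟨c, hc, m, hm, h1⟩
  have h1' : (1 : F) = c + m := h1
  have hm' : m = 1 - c := by rw [h1']; ring
  have hmC : m ∈ chart A ({x} : Set F) := by
    rw [hm']
    exact sub_mem (one_mem _) hc.1
  have := R.add_mem_ker hP₀ hc (R.mem_ker_of_mem_nonunits G hC hP₀ hmC hm)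
  rw [← h1'] at this
  exact R.one_not_mem_ker P₀ this

/-- (L1) every point of the special fibre of a chart is the centre of a valuation subring
`V ≤ 𝒪`. -/
theorem Loc_exists_valuationSubring (G : R.GaussData A 𝒪) (hC : R.RChart A 𝒪 x)
    {P₀ : Place Ω F} (hP₀ : R.Dom A x P₀) :
    ∃ V : ValuationSubring F, V ≤ 𝒪 ∧ (∀ c ∈ chart A ({x} : Set F), c ∈ V) ∧
      ∀ c ∈ R.ker A x P₀, c ∈ V.nonunits := by
  obtain ⟨V, hBV, hIV⟩ :=
    Ideal.image_subset_nonunits_valuationSubring (Loc_I G hC hP₀) (Loc_I_ne_top G hC hP₀)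
  have hM : ∀ m ∈ 𝒪.nonunits, m ∈ V.nonunits := by
    intro m hm
    have hmB : m ∈ Loc_B G hC := ⟨0, zero_mem _, m, hm, by ring⟩
    exact hIV ⟨⟨m, hmB⟩, ⟨0, Loc_zero_mem_ker P₀, m, hm, by simp⟩, rfl⟩
  refine ⟨V, ?_, ?_, ?_⟩
  · intro y hy
    by_contra hyO
    have h1 : y⁻¹ ∈ V.nonunits := hM _ (R.inv_nu_of_not_mem hyO)
    have hy0 : y ≠ 0 := by
      rintro rfl
      exact hyO 𝒪.zero_mem
    have h2 := R.nu_mul_left hy h1
    rw [mul_inv_cancel₀ hy0] at h2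
    exact R.one_not_nu h2
  · intro c hc
    exact hBV ⟨c, hc, 0, R.nu_zero, by ring⟩
  · intro c hc
    have hcB : c ∈ Loc_B G hC := ⟨c, hc.1, 0, R.nu_zero, by ring⟩
    exact hIV ⟨⟨c, hcB⟩, ⟨c, hc, 0, R.nu_zero, by simp⟩, rfl⟩

/-- `M ⊆ 𝔪_V` for `V ≤ 𝒪`. -/
theorem Loc_nu_of_le {V : ValuationSubring F} (hV : V ≤ 𝒪) {m : F} (hm : m ∈ 𝒪.nonunits) :
    m ∈ V.nonunits := by
  rw [R.nu_iff] at hm ⊢
  rcases hm with h | h
  · exact Or.inl h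
  · exact Or.inr fun h' => h (hV h')

/-- (a) an element of `C ∖ n` is a unit of `V`. -/
theorem Loc_valuation_eq_one {P₀ : Place Ω F} (hP₀ : R.Dom A x P₀) (V : ValuationSubring F)
    (hchart : ∀ c ∈ chart A ({x} : Set F), c ∈ V) (hker : ∀ c ∈ R.ker A x P₀, c ∈ V.nonunits)
    {e : F} (he : e ∈ chart A ({x} : Set F)) (he' : e ∉ R.ker A x P₀) : V.valuation e = 1 := by
  have ha : val P₀ e ∈ A := R.val_mem_of_mem_chart hP₀ he
  have ha' : val P₀ e ∉ A.nonunits := fun h => he' ⟨he, h⟩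
  have ha0 : val P₀ e ≠ 0 := R.ne_zero_of_not_nu ha'
  have h1 : algebraMap Ω F (val P₀ e) ∉ V.nonunits := by
    apply R.not_nu_of_inv_mem ((map_ne_zero _).2 ha0)
    rw [← map_inv₀]
    exact hchart _ (R.algebraMap_mem_chart (R.inv_mem_of_not_nu ha'))
  have h2 : algebraMap Ω F (val P₀ e) - e ∈ V.nonunits := by
    have := R.nu_neg (hker _ (R.sub_val_mem_ker hP₀ he))
    rwa [neg_sub] at this
  exact R.valuation_eq_one (hchart e he) (R.not_nu_of_sub h1 h2)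

/-- (b) congruent modulo `M` to a unit of `𝒪` implies the same valuation for `V`. -/
theorem Loc_valuation_eq {V : ValuationSubring F} (hV : V ≤ 𝒪) {z z' : F}
    (hz : z ∉ 𝒪.nonunits) (h : z - z' ∈ 𝒪.nonunits) : V.valuation z' = V.valuation z := by
  have hz0 : z ≠ 0 := R.ne_zero_of_not_nu hz
  have h1 : z⁻¹ * (z - z') ∈ V.nonunits :=
    Loc_nu_of_le hV (R.nu_mul_left (R.inv_mem_of_not_nu hz) h)
  rw [ValuationSubring.mem_nonunits_iff, map_mul, map_inv₀,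
    inv_mul_lt_one₀ (zero_lt_iff.2 ((V.valuation.ne_zero_iff).2 hz0))] at h1
  have h2 : z' = z - (z - z') := by ring
  rw [h2]
  exact Valuation.map_sub_eq_of_lt_left _ h1

/-- (L2) a unit of such a `V` has as many zeros as poles in the reduction class of `P₀`. -/
theorem Loc_cnt_eq_zero (G : R.GaussData A 𝒪) (hC : R.RChart A 𝒪 x)
    {P₀ : Place Ω F} (hP₀ : R.Dom A x P₀) (V : ValuationSubring F) (hV : V ≤ 𝒪)
    (hchart : ∀ c ∈ chart A ({x} : Set F), c ∈ V) (hker : ∀ c ∈ R.ker A x P₀, c ∈ V.nonunits)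
    {y : F} (hy : y ∈ V) (hy' : y⁻¹ ∈ V) : R.cnt (R.cls A x (R.ker A x P₀)) y = 0 := by
  by_cases hy0 : y = 0
  · rw [hy0]
    exact R.cnt_zero_fun _
  have hyM : y ∉ 𝒪.nonunits := R.not_nu_of_inv_mem hy0 (hV hy')
  have hvy : V.valuation y = 1 := R.valuation_eq_one hy (R.not_nu_of_inv_mem hy0 hy')
  obtain ⟨d, hd, hdM, hc⟩ := hC.frac y (hV hy)
  have hcM : y * d ∉ 𝒪.nonunits := R.not_nu_mul (hV hy) hyM hdM
  have hd0 : d ≠ 0 := R.ne_zero_of_not_nu hdM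
  obtain ⟨t, ht, htM, n₁, n₂, hn₁, hn₂, ⟨σ₁, hσ₁, hσ₁', w₁, hw₁, hw₁', h₁⟩,
    ⟨σ₂, hσ₂, hσ₂', w₂, hw₂, hw₂', h₂⟩⟩ := R.exists_normal_form G hC hP₀ hc hd hcM hdM
  have hnu : ∀ e ∈ chart A ({x} : Set F), e ∉ R.ker A x P₀ → e ∉ 𝒪.nonunits := fun e he he' h =>
    he' (R.mem_ker_of_mem_nonunits G hC hP₀ he h)
  have hO : ∀ e ∈ chart A ({x} : Set F), e ∈ 𝒪 := fun e he => R.mem_of_mem_chart G hC.mem he
  have e₁ := Loc_valuation_eq hV (R.not_nu_mul (hO σ₁ hσ₁) (hnu σ₁ hσ₁ hσ₁') hcM) h₁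
  have e₂ := Loc_valuation_eq hV (R.not_nu_mul (hO σ₂ hσ₂) (hnu σ₂ hσ₂ hσ₂') hdM) h₂
  rw [map_mul, map_mul, map_pow, Loc_valuation_eq_one hP₀ V hchart hker hσ₁ hσ₁',
    Loc_valuation_eq_one hP₀ V hchart hker hw₁ hw₁', one_mul, mul_one, map_mul, hvy, one_mul] at e₁
  rw [map_mul, map_mul, map_pow, Loc_valuation_eq_one hP₀ V hchart hker hσ₂ hσ₂',
    Loc_valuation_eq_one hP₀ V hchart hker hw₂ hw₂', one_mul, mul_one] at e₂
  have ht0 : t ≠ 0 := R.ne_zero_of_not_nu htM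
  have hvt : V.valuation t < 1 := (ValuationSubring.mem_nonunits_iff _).1 (hker t ht)
  have hvt0 : 0 < V.valuation t := zero_lt_iff.2 ((V.valuation.ne_zero_iff).2 ht0)
  have hn : n₁ = n₂ := pow_right_injective₀ hvt0 hvt.ne (e₁.trans e₂.symm)
  have hyd : y = y * d / d := by rw [mul_div_assoc, div_self hd0, mul_one]
  rw [hyd, R.cnt_div _ (mul_ne_zero hy0 hd0) hd0, ← hn₁, ← hn₂, hn, sub_self]

/-- one chart. -/
theorem Loc_dvd_cnt (G : R.GaussData A 𝒪) (hC : R.RChart A 𝒪 x) (p : ℕ) {u : F} (hu : u ≠ 0)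
    (PD : ∀ V : ValuationSubring F, V ≤ 𝒪 → ∃ a : F, a ≠ 0 ∧ a ^ p * u ∈ V ∧ (a ^ p * u)⁻¹ ∈ V)
    (s : Set F) : (p : ℤ) ∣ R.cnt (R.cls A x s) u := by
  by_cases hne : (R.cls A x s).Nonempty
  · obtain ⟨P₀, hP₀, rfl⟩ := hne
    obtain ⟨V, hV, hchart, hker⟩ := Loc_exists_valuationSubring G hC hP₀
    obtain ⟨a, ha, h1, h2⟩ := PD V hV
    have h3 := Loc_cnt_eq_zero G hC hP₀ V hV hchart hker h1 h2
    rw [R.cnt_mul _ (pow_ne_zero p ha) hu, R.cnt_pow] at h3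
    exact ⟨-R.cnt (R.cls A x (R.ker A x P₀)) a, by linarith⟩
  · rw [Set.not_nonempty_iff_eq_empty.1 hne, R.cnt_empty]
    exact dvd_zero _

/-- (PD ⇒ DIV_p). -/
theorem dvd_mapDomain_red (G : R.GaussData A 𝒪) {h : F} (hh : h ≠ 0) (C0 : R.RChart A 𝒪 h)
    (C1 : R.RChart A 𝒪 h⁻¹) (p : ℕ) {u : F} (hu : u ≠ 0)
    (PD : ∀ V : ValuationSubring F, V ≤ 𝒪 → ∃ a : F, a ≠ 0 ∧ a ^ p * u ∈ V ∧ (a ^ p * u)⁻¹ ∈ V)
    (s : Set F ⊕ Set F) : (p : ℤ) ∣ ((divf (K := Ω) u).mapDomain (R.red A h)) s := by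
  rw [R.mapDomain_divf_apply]
  rcases s with s | s
  · rw [R.setOf_red_eq_inl]
    exact Loc_dvd_cnt G C0 p hu PD s
  · by_cases hs : h⁻¹ ∈ s
    · rw [R.setOf_red_eq_inr_of_mem hh hs]
      exact Loc_dvd_cnt G C1 p hu PD s
    · rw [R.setOf_red_eq_inr_of_not_mem hh hs, R.cnt_empty]
      exact dvd_zero _

end Fermat.Agent.LP.Old
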