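import Fermat.Agent.LP.Old.Ops
import Fermat.Agent.LP.Old.Div
import Fermat.Agent.LP.Old.Loc

/-!
# LP-OLD, file 12: the main theorem on `FB N`
-/

set_option autoImplicit false
set_option synthInstance.maxHeartbeats 400000

noncomputable section

namespace Fermat.Agent.LP.Old

open AlgebraicCurve ModularCurve Fermat.Agent.GR Fermat.Agent.GR.S Fermat.Agent.S17.FF
open Fermat.Agent.S17.WMW (Qb GQ FB gal)

variable {A : ValuationSubring Qb} {N : ℕ} [NeZero N] {𝒪 : ValuationSubring (FB N)} {h : FB N}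
  {S0 : Set ℕ}

/-- (S1) the kernel of the reduction of divisors is stable under `T_ℓ`. -/
theorem Main_ker_stable (RD : RedData A (FB N) 𝒪 h) {p : ℕ} (hp : p.Prime)
    (hA : A.LiesOverPrime p) (hpS : p ∈ S0) (i : Idx N S0) (E : Divisor Qb (FB N))
    (hE : rho A h E = 0) : rho A h (TD N S0 i E) = 0 := by
  have hE0 : E ∈ Dv0 N := by
    rw [mem_Dv0_iff, ← tot_rho (A := A) (h := h), hE, map_zero]
  obtain ⟨L, hL, hEL⟩ := exists_level N E hE0
  have hip : i.1 ≠ p := fun hh => i.2.2.2 (hh ▸ hpS)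
  refine Abs_psi_eq_zero (Pr N) (Gam N L) (rho A h) ((rho A h).comp (TD N S0 i)) (Yset N L)
    (finrankAlong Qb (heckeBetaBar Qb N i.1) * (2 * genus Qb (FB N))) ?_ (exists_rep N L) ?_
    (finite_image_Yset RD hp hA L) hEL hE
  · rintro f ⟨u, rfl⟩ hf
    exact rho_Tdiv_dv RD hp hA i.1 i.2.1 i.2.2.1 hip u hf
  · intro Y' hY'
    refine (l1_rho_le _).trans ((l1_Tdiv_le N i.1 Y').trans ?_)
    exact Nat.mul_le_mul_left _ hY'.1

theorem Main_ker_stable' (RD : RedData A (FB N) 𝒪 h) {p : ℕ} (hp : p.Prime)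
    (hA : A.LiesOverPrime p) (hpS : p ∈ S0) (t : FreeAlgebra ℤ (Idx N S0))
    (E : Divisor Qb (FB N)) (hE : rho A h E = 0) : rho A h (act (TD N S0) t E) = 0 :=
  act_mem (TD N S0) (rho A h).ker (fun i x hx => Main_ker_stable RD hp hA hpS i x hx) t hE

/-- (S2) an operator which vanishes in the Hecke algebra kills the reduction of the classes of
degree `0`. -/
theorem Main_step (RD : RedData A (FB N) 𝒪 h) {p : ℕ} (hp : p.Prime)
    (hA : A.LiesOverPrime p) (K : I.KummerData N) (t : FreeAlgebra ℤ (Idx N S0))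
    (ht : evT N S0 t = 0) (Y : Divisor Qb (FB N)) (hY : Y ∈ Dv0 N) :
    ∃ f ∈ Pr N, rho A h (act (TD N S0) t Y) = rho A h f := by
  obtain ⟨L, hL, hYL⟩ := exists_level N Y hY
  refine Abs_main (Pr N) (Gam N L) (Dv0 N) (rho A h) (Yset N L) (act (TD N S0) t)
    (exists_rep N L) (finite_image_Yset RD hp hA L) (fun f hf => act_TD_mem_Pr t hf)
    (fun Y hY n hn => exists_nsmul_sub_mem_Pr N Y hY n hn) ?_ (fun Y hY => hY.1) hYL
  intro Y hY n hn B hB hBY
  refine ⟨act_TD_mem_Dv0 t hB, fun τ hτ => ?_⟩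
  exact Abs_stab (gal N τ) (Pr N) (Dv0 N) (act (TD N S0) t)
    (fun f hf => gal_smul_mem_Pr N τ hf) (fun Y => act_TD_smul t τ Y)
    (fun Y _ n hn hY => act_TD_tors K t ht Y n hn hY)
    (fun Y hY => gal_smul_mem_Dv0 N τ hY) (hY.2 τ hτ) hn hB hBY

/-- (S3) + (S4): the main theorem on `FB N`. -/
theorem old_core_bar (RD : RedData A (FB N) 𝒪 h) {p : ℕ} (hp : p.Prime)
    (hA : A.LiesOverPrime p) (hpS : p ∈ S0) (K : I.KummerData N) (a : Idx N S0 → ℤ)
    (u : Additive (FB N)ˣ)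
    (PD : ∀ V : ValuationSubring (FB N), V ≤ 𝒪 → ∃ c : FB N, c ≠ 0 ∧
      c ^ p * ((Additive.toMul u : (FB N)ˣ) : FB N) ∈ V ∧
      (c ^ p * ((Additive.toMul u : (FB N)ˣ) : FB N))⁻¹ ∈ V)
    (NT : u ∉ trivSub p 𝒪)
    (EIG : ∀ i, TM N S0 i u - a i • u ∈ trivSub p 𝒪)
    (t : FreeAlgebra ℤ (Idx N S0)) (ht : evT N S0 t = 0) :
    (p : ℤ) ∣ FreeAlgebra.lift ℤ a t := by
  -- DIV_p
  have hdiv := dvd_mapDomain_red RD.gauss RD.ne_zero RD.c0 RD.c1 p (Additive.toMul u).ne_zero PD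
  obtain ⟨D, hD⟩ := Abs_exists_div (R.red A h) (dv N u) p hdiv
  have htot : tot (rho A h (dv N u)) = 0 := by
    rw [tot_rho]
    exact Pr_le_Dv0 N ⟨u, rfl⟩
  obtain ⟨z, hz⟩ := Abs_final (dv N) (rho A h) (act (TM N S0) t) (act (TD N S0) t)
    (fun m => dv_act t m) (fun E hE => Main_ker_stable' RD hp hA hpS t E hE)
    (fun Y hY => by
      obtain ⟨f, ⟨m, rfl⟩, hf⟩ := Main_step RD hp hA K t ht Y
        (by rw [mem_Dv0_iff, ← tot_rho (A := A) (h := h), hY])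
      exact ⟨m, hf⟩) p hp.pos u D hD htot
  have h1 : act (TM N S0) t u - p • z ∈ trivSub p 𝒪 := mem_trivSub_of_rho_dv RD hp.pos hz
  have h2 : act (TM N S0) t u ∈ trivSub p 𝒪 := by
    have := add_mem h1 (nsmul_mem_trivSub (𝒪 := 𝒪) p z)
    simpa using this
  have h3 : act (TM N S0) t u - (FreeAlgebra.lift ℤ a t) • u ∈ trivSub p 𝒪 :=
    act_eigen (TM N S0) (trivSub p 𝒪)
      (fun i x hx => Tfun_mem_trivSub RD hp hA i.1 i.2.1 i.2.2.1 (fun hh => i.2.2.2 (hh ▸ hpS)) x hx)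
      a u EIG t
  have h4 : (FreeAlgebra.lift ℤ a t) • u ∈ trivSub p 𝒪 := by
    have := sub_mem h2 h3
    simpa using this
  by_contra hnd
  have hcop : IsCoprime (p : ℤ) (FreeAlgebra.lift ℤ a t) :=
    (Nat.prime_iff_prime_int.mp hp).coprime_iff_not_dvd.mpr hnd
  obtain ⟨x, y, hxy⟩ := hcop
  apply NT
  have h5 : u = x • (p • u) + y • ((FreeAlgebra.lift ℤ a t) • u) := by
    rw [← natCast_zsmul u p, smul_smul, smul_smul, ← add_zsmul, hxy, one_zsmul]
  rw [h5]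
  exact add_mem (zsmul_mem (nsmul_mem_trivSub p u) x) (zsmul_mem h4 y)

end Fermat.Agent.LP.Old
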