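import Fermat.Agent.LP.Old.Red
import Fermat.Agent.GR.H.Cyc

/-!
# LP-OLD, file 5: `T_ℓ` preserves the principal units of the Gauss valuation
-/

set_option autoImplicit false
set_option synthInstance.maxHeartbeats 400000

noncomputable section

namespace Fermat.Agent.LP.Old

open AlgebraicCurve ModularCurve Fermat.Agent.GR Fermat.Agent.GR.S Fermat.Agent.S17.FF
open Fermat.Agent.S17.WMW (Qb GQ FB gal)

variable {A : ValuationSubring Qb} {N : ℕ} [NeZero N] {𝒪 : ValuationSubring (FB N)} {h : FB N}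

/-- a primitive `ℓ`-th root of unity is a unit of `A` whose reduction is again primitive
(`ℓ` a prime different from the residue characteristic). -/
theorem One_exists_unit_primitive {p ℓ : ℕ} (hp : p.Prime) (hA : A.LiesOverPrime p) (hℓ : ℓ.Prime)
    (hℓp : ℓ ≠ p) (ζ : Qbˣ) (hζ : IsPrimitiveRoot ζ ℓ) :
    ∃ z : (↥A)ˣ, Units.map (A.subtype : ↥A →* Qb) z = ζ ∧
      IsPrimitiveRoot
        (Units.map (IsLocalRing.residue A : ↥A →* IsLocalRing.ResidueField A) z) ℓ := by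
  have hℓ0 : ℓ ≠ 0 := hℓ.ne_zero
  have hmem : ∀ ξ : Qbˣ, ξ ^ ℓ = 1 → (ξ : Qb) ∈ A := by
    intro ξ hξ
    rw [← A.valuation_le_one_iff]
    have h1 : A.valuation (ξ : Qb) ^ ℓ = 1 := by
      rw [← map_pow, ← Units.val_pow_eq_pow_val, hξ, Units.val_one, map_one]
    exact le_of_eq ((pow_eq_one_iff.mp h1).resolve_right hℓ0)
  have hζ1 : ζ ^ ℓ = 1 := hζ.pow_eq_one
  have hζ' : ζ⁻¹ ^ ℓ = 1 := by rw [inv_pow, hζ1, inv_one]
  let z : (↥A)ˣ :=
    { val := ⟨ζ, hmem ζ hζ1⟩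
      inv := ⟨(ζ⁻¹ : Qbˣ), hmem ζ⁻¹ hζ'⟩
      val_inv := by
        apply Subtype.ext
        simp
      inv_val := by
        apply Subtype.ext
        simp }
  refine ⟨z, Units.ext rfl, ?_⟩
  have hz : z ^ ℓ = 1 := by
    apply Units.ext
    apply Subtype.ext
    have := congrArg (fun x : Qbˣ => (x : Qb)) hζ1
    simpa using this
  have h1 : (Units.map (IsLocalRing.residue A : ↥A →* IsLocalRing.ResidueField A) z) ^ ℓ = 1 := by
    rw [← map_pow, hz, map_one]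
  have hne : Units.map (IsLocalRing.residue A : ↥A →* IsLocalRing.ResidueField A) z ≠ 1 := by
    intro h
    have h2 : IsLocalRing.residue A (z : A) = 1 := congrArg Units.val h
    have h3 : IsLocalRing.residue A ((z : A) - 1) = 0 := by rw [map_sub, h2, map_one, sub_self]
    rw [IsLocalRing.residue_eq_zero_iff] at h3
    have h4 : ((ζ : Qb) - 1) ∈ A.nonunits := ValuationSubring.coe_mem_nonunits_iff.mpr h3
    have hnd : ¬ p ∣ ℓ := fun hd => hℓp ((Nat.prime_dvd_prime_iff_eq hp hℓ).mp hd).symm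
    have h5 : (ζ : Qb) = 1 := GR.H.Cyc_eq_of_sub_mem A p hp hA ℓ hnd _ _
      (by rw [← Units.val_pow_eq_pow_val, hζ1, Units.val_one]) (one_pow _) h4
    exact hζ.ne_one hℓ.one_lt (Units.ext h5)
  haveI : Fact ℓ.Prime := ⟨hℓ⟩
  rw [← orderOf_eq_prime h1 hne]
  exact IsPrimitiveRoot.orderOf _

/-- formal part: `heckeMulT` preserves primitive series and congruences modulo `𝔪_A`
(`ℓ` different from the residue characteristic). -/
theorem One_formal {p : ℕ} (hp : p.Prime) (hA : A.LiesOverPrime p) (ℓ : ℕ) [NeZero ℓ]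
    (hℓ : ℓ.Prime) (hℓp : ℓ ≠ p) (ζ : Qbˣ) (hζ : IsPrimitiveRoot ζ ℓ) {a b : LaurentSeries Qb}
    (ha : IsPrim A a) (hb : IsInt A b) (hab : Cong A a b) :
    IsPrim A (heckeMulT ℓ ζ a) ∧ IsInt A (heckeMulT ℓ ζ b) ∧
      Cong A (heckeMulT ℓ ζ a) (heckeMulT ℓ ζ b) := by
  obtain ⟨a', rfl, ha0⟩ := (isPrim_iff A).mp ha
  obtain ⟨b', rfl⟩ := (isInt_iff A).mp hb
  have hab' := (cong_incl_iff A a' b').mp hab
  obtain ⟨z, hz, hz1⟩ := One_exists_unit_primitive hp hA hℓ hℓp ζ hζ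
  have hi : ∀ x : LaurentSeries A, incl A (heckeMulT ℓ z x) = heckeMulT ℓ ζ (incl A x) := by
    intro x
    rw [incl, coeffMap_heckeMulT, hz]
  have hr : ∀ x : LaurentSeries A, red A (heckeMulT ℓ z x) =
      heckeMulT ℓ (Units.map (IsLocalRing.residue A : ↥A →* IsLocalRing.ResidueField A) z)
        (red A x) := by
    intro x
    rw [red, coeffMap_heckeMulT]
  rw [← hi, ← hi]
  refine ⟨(isPrim_incl_iff A _).mpr ?_, (isInt_iff A).mpr ⟨_, rfl⟩, (cong_incl_iff A _ _).mpr ?_⟩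
  · rw [hr]
    exact heckeMulT_ne_zero ℓ _ hz1 ha0
  · rw [hr, hr, hab']

theorem One_exists_root (ℓ : ℕ) [NeZero ℓ] : ∃ ζ : Qbˣ, IsPrimitiveRoot ζ ℓ := by
  obtain ⟨ζ, hζ⟩ := HasEnoughRootsOfUnity.exists_primitiveRoot Qb ℓ
  exact ⟨hζ.isUnit (NeZero.ne ℓ) |>.unit, IsPrimitiveRoot.coe_units_iff.mp (by simpa using hζ)⟩

theorem Tfun_one (RD : RedData A (FB N) 𝒪 h) {p : ℕ} (hp : p.Prime) (hA : A.LiesOverPrime p)
    (ℓ : ℕ) [NeZero ℓ] (hℓ : ℓ.Prime) (hℓN : ¬ ℓ ∣ N) (hℓp : ℓ ≠ p) (u : (FB N)ˣ)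
    (hu : (u : FB N) - 1 ∈ 𝒪.nonunits) : ((Tfun N ℓ u : (FB N)ˣ) : FB N) - 1 ∈ 𝒪.nonunits := by
  obtain ⟨ζ, hζ⟩ := One_exists_root ℓ
  obtain ⟨f, g, hf, hg, hfc, hgp, hfg⟩ := (RD.spec' _).mp hu
  have hg0 : (⟨g, hg⟩ : FB N) ≠ 0 := by
    intro h0
    apply E.M1_isPrim_ne_zero A hgp
    exact congrArg Subtype.val h0
  let gU : (FB N)ˣ := Units.mk0 ⟨g, hg⟩ hg0
  have hgU : (((gU : (FB N)ˣ) : FB N) : LaurentSeries Qb) = g := rfl
  have haU : (((u * gU : (FB N)ˣ) : FB N) : LaurentSeries Qb) = f + g := by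
    rw [Units.val_mul, IntermediateField.coe_mul, hgU, ← hfg]
    have : (((u : FB N) - 1 : FB N) : LaurentSeries Qb) = ((u : FB N) : LaurentSeries Qb) - 1 := rfl
    rw [this]
    ring
  have hint : IsInt A (f + g) := fun n => by
    rw [HahnSeries.coeff_add]
    exact A.add_mem _ _ (A.nonunits_subset (hfc n)) (hgp.1 n)
  have hcong : Cong A g (f + g) := fun n => by
    rw [HahnSeries.coeff_add, sub_add_cancel_right]
    have := hfc n
    rw [ValuationSubring.mem_nonunits_iff] at this ⊢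
    rwa [Valuation.map_neg]
  obtain ⟨h1, h2, h3⟩ := One_formal hp hA ℓ hℓ hℓp ζ hζ hgp hint hcong
  have eg : heckeMulT ℓ ζ g = (((Tfun N ℓ gU : (FB N)ˣ) : FB N) : LaurentSeries Qb) := by
    rw [coe_Tfun N ℓ hℓ hℓN ζ hζ gU, hgU]
  have ea : heckeMulT ℓ ζ (f + g) =
      (((Tfun N ℓ (u * gU) : (FB N)ˣ) : FB N) : LaurentSeries Qb) := by
    rw [coe_Tfun N ℓ hℓ hℓN ζ hζ (u * gU), haU]
  rw [eg] at h1 h3
  rw [ea] at h3
  refine (RD.spec' _).mpr ⟨(((Tfun N ℓ (u * gU) : (FB N)ˣ) : FB N) : LaurentSeries Qb) -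
    (((Tfun N ℓ gU : (FB N)ˣ) : FB N) : LaurentSeries Qb),
    (((Tfun N ℓ gU : (FB N)ˣ) : FB N) : LaurentSeries Qb),
    sub_mem (Subtype.prop _) (Subtype.prop _), Subtype.prop _, fun n => ?_, h1, ?_⟩
  · have := h3 n
    rw [HahnSeries.coeff_sub]
    rw [ValuationSubring.mem_nonunits_iff] at this ⊢
    rwa [← Valuation.map_neg, neg_sub]
  · rw [map_mul, Units.val_mul, IntermediateField.coe_mul]
    have : ((((Tfun N ℓ u : (FB N)ˣ) : FB N) - 1 : FB N) : LaurentSeries Qb) =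
      (((Tfun N ℓ u : (FB N)ˣ) : FB N) : LaurentSeries Qb) - 1 := rfl
    rw [this]
    ring

/-- `T_ℓ` of a constant is a constant. -/
theorem Tfun_const (ℓ : ℕ) [NeZero ℓ] (hℓ : ℓ.Prime) (hℓN : ¬ ℓ ∣ N) (u : (FB N)ˣ) (κ : Qb)
    (hu : (u : FB N) = algebraMap Qb (FB N) κ) :
    ((Tfun N ℓ u : (FB N)ˣ) : FB N) = algebraMap Qb (FB N) (κ ^ (ℓ + 1)) := by
  obtain ⟨ζ, hζ⟩ := One_exists_root ℓ
  apply Subtype.ext
  have e : ∀ c : Qb, ((algebraMap Qb (FB N) c : FB N) : LaurentSeries Qb) = HahnSeries.C c := by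
    intro c
    rw [IntermediateField.coe_algebraMap_apply, algebraMap_laurentSeries_eq_single]
    rfl
  rw [coe_Tfun N ℓ hℓ hℓN ζ hζ u, hu, e, e]
  exact heckeMulT_C ℓ ζ κ

/-- `T_ℓ` preserves the subgroup of the classes which are trivial at the Gauss valuation. -/
theorem Tfun_mem_trivSub (RD : RedData A (FB N) 𝒪 h) {p : ℕ} (hp : p.Prime)
    (hA : A.LiesOverPrime p) (ℓ : ℕ) [NeZero ℓ] (hℓ : ℓ.Prime) (hℓN : ¬ ℓ ∣ N) (hℓp : ℓ ≠ p)
    (u : Additive (FB N)ˣ) (hu : u ∈ trivSub p 𝒪) :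
    MonoidHom.toAdditive (Tfun N ℓ) u ∈ trivSub p 𝒪 := by
  obtain ⟨z, hz⟩ := (mem_trivSub_iff p u).mp hu
  refine (mem_trivSub_iff p _).mpr ⟨Tfun N ℓ z, ?_⟩
  have h1 := Tfun_one RD hp hA ℓ hℓ hℓN hℓp (Additive.toMul u * z ^ p)
    (by rw [Units.val_mul, Units.val_pow_eq_pow_val]; exact hz)
  rw [map_mul, map_pow, Units.val_mul, Units.val_pow_eq_pow_val] at h1
  exact h1

/-- (H1) `T_ℓ` preserves the principal divisors with reduction `0`. -/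
theorem rho_Tdiv_dv (RD : RedData A (FB N) 𝒪 h) {p : ℕ} (hp : p.Prime)
    (hA : A.LiesOverPrime p) (ℓ : ℕ) [NeZero ℓ] (hℓ : ℓ.Prime) (hℓN : ¬ ℓ ∣ N) (hℓp : ℓ ≠ p)
    (u : Additive (FB N)ˣ) (hu : rho A h (dv N u) = 0) : rho A h (Tdiv N ℓ (dv N u)) = 0 := by
  obtain ⟨κ, hκ, hκu⟩ := (rho_dv_eq_zero_iff RD u).mp hu
  have e : Tdiv N ℓ (dv N u) = dv N (Additive.ofMul (Tfun N ℓ (Additive.toMul u))) := by
    rw [dv_apply, dv_apply, toMul_ofMul, divf_Tfun]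
  rw [e]
  refine (rho_dv_eq_zero_iff RD _).mpr ⟨κ ^ (ℓ + 1), pow_ne_zero _ hκ, ?_⟩
  let kU : (FB N)ˣ := Units.mk0 (algebraMap Qb (FB N) κ) ((map_ne_zero _).mpr hκ)
  have h1 := Tfun_one RD hp hA ℓ hℓ hℓN hℓp (Additive.toMul u / kU)
    (by rw [Units.val_div_eq_div_val]; exact hκu)
  rw [map_div, Units.val_div_eq_div_val, Tfun_const ℓ hℓ hℓN kU κ rfl] at h1
  exact h1

end Fermat.Agent.LP.Old
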