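import Fermat.Agent.LP.Old.Canon
import Fermat.Agent.LP.Old.Free
import Fermat.Agent.LP.Old.One
import Fermat.Agent.GR.I.Iface
import Fermat.Agent.GR.I.Level
import Fermat.Agent.S17.WMW.Fin

/-!
# LP-OLD, file 9: the families of Hecke operators indexed by the primes outside `S0`
-/

set_option autoImplicit false
set_option synthInstance.maxHeartbeats 400000

noncomputable section

namespace Fermat.Agent.LP.Old

open AlgebraicCurve ModularCurve Fermat.Agent.GR Fermat.Agent.GR.S Fermat.Agent.S17.FF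
open Fermat.Agent.GR.H (HeckeFull)
open Fermat.Agent.S17.WMW (Qb GQ FB gal)

/-- the primes not dividing `N` outside `S0`. -/
def Idx (N : ℕ) (S0 : Set ℕ) : Type := {ℓ : ℕ // ℓ.Prime ∧ ¬ ℓ ∣ N ∧ ℓ ∉ S0}

variable {N : ℕ} [NeZero N] {S0 : Set ℕ}

instance Idx.instNeZero (i : Idx N S0) : NeZero i.1 := ⟨i.2.1.ne_zero⟩

variable (N S0)

/-- `T_ℓ` on divisors. -/
def TD (i : Idx N S0) : Divisor Qb (FB N) →+ Divisor Qb (FB N) := Tdiv N i.1

/-- `T_ℓ` on functions. -/
def TM (i : Idx N S0) : Additive (FB N)ˣ →+ Additive (FB N)ˣ := MonoidHom.toAdditive (Tfun N i.1)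

/-- `T_ℓ` in the Hecke algebra. -/
def tau (i : Idx N S0) : HeckeFull N := HeckeFull.T i.2.1 i.2.2.1

/-- the evaluation of a noncommutative polynomial in the Hecke algebra. -/
def evT : FreeAlgebra ℤ (Idx N S0) →ₐ[ℤ] HeckeFull N := FreeAlgebra.lift ℤ (tau N S0)

variable {N S0}

theorem dv_TM (i : Idx N S0) (u : Additive (FB N)ˣ) : dv N (TM N S0 i u) = TD N S0 i (dv N u) :=
  divf_Tfun N i.1 (Additive.toMul u)

theorem dv_act (t : FreeAlgebra ℤ (Idx N S0)) (u : Additive (FB N)ˣ) :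
    dv N (act (TM N S0) t u) = act (TD N S0) t (dv N u) :=
  act_map (TM N S0) (TD N S0) (dv N) dv_TM t u

theorem act_TD_mem_Pr (t : FreeAlgebra ℤ (Idx N S0)) {D : Divisor Qb (FB N)} (hD : D ∈ Pr N) :
    act (TD N S0) t D ∈ Pr N := by
  obtain ⟨u, rfl⟩ := hD
  exact ⟨_, dv_act t u⟩

theorem act_TD_mem_Dv0 (t : FreeAlgebra ℤ (Idx N S0)) {D : Divisor Qb (FB N)} (hD : D ∈ Dv0 N) :
    act (TD N S0) t D ∈ Dv0 N := by
  refine act_mem (TD N S0) (Dv0 N) (fun i x hx => ?_) t hD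
  rw [mem_Dv0_iff] at hx ⊢
  rw [TD, degree_Tdiv, hx, mul_zero]

theorem act_TD_smul (t : FreeAlgebra ℤ (Idx N S0)) (σ : GQ) (D : Divisor Qb (FB N)) :
    act (TD N S0) t (gal N σ • D) = gal N σ • act (TD N S0) t D :=
  (act_map (TD N S0) (TD N S0) (DistribMulAction.toAddMonoidHom (Divisor Qb (FB N)) (gal N σ))
    (fun i x => (Tdiv_smul N i.1 σ x).symm) t D).symm

/-- `act_rel` for an arbitrary `ℤ`-algebra structure on `𝕋`. -/
theorem Ops_act_rel {ι X Y 𝕋 : Type*} [AddCommGroup X] [AddCommGroup Y] [Ring 𝕋] [Algebra ℤ 𝕋]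
    (T : ι → X →+ X) (τ : ι → 𝕋) (hecke : 𝕋 →+* Module.End ℤ Y) (Rel : X → Y → Prop)
    (hzero : Rel 0 0) (hadd : ∀ x x' y y', Rel x y → Rel x' y' → Rel (x + x') (y + y'))
    (hneg : ∀ x y, Rel x y → Rel (-x) (-y))
    (hT : ∀ i x y, Rel x y → Rel (T i x) (hecke (τ i) y)) (t : FreeAlgebra ℤ ι) {x : X} {y : Y}
    (h : Rel x y) : Rel (act T t x) (hecke (FreeAlgebra.lift ℤ τ t) y) := by
  have hnat : ∀ (n : ℕ) (x : X) (y : Y), Rel x y → Rel (n • x) (n • y) := by
    intro n x y h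
    induction n with
    | zero => simpa using hzero
    | succ n ih =>
      rw [succ_nsmul, succ_nsmul]
      exact hadd _ _ _ _ ih h
  have hint : ∀ (n : ℤ) (x : X) (y : Y), Rel x y → Rel (n • x) (n • y) := by
    intro n x y h
    obtain ⟨m, rfl | rfl⟩ := n.eq_nat_or_neg
    · rw [natCast_zsmul, natCast_zsmul]
      exact hnat m x y h
    · rw [neg_smul, neg_smul, natCast_zsmul, natCast_zsmul]
      exact hneg _ _ (hnat m x y h)
  induction t using FreeAlgebra.induction generalizing x y with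
  | grade0 n =>
    rw [act_algebraMap, AlgHom.commutes]
    have e : hecke (algebraMap ℤ 𝕋 n) y = n • y := by
      rw [eq_intCast, map_intCast]
      simp
    rw [e]
    exact hint n x y h
  | grade1 i =>
    rw [act_ι, FreeAlgebra.lift_ι_apply]
    exact hT i x y h
  | mul s t hs ht =>
    rw [act_mul, map_mul, map_mul]
    exact hs (ht h)
  | add s t hs ht =>
    rw [act_add, map_add, map_add]
    exact hadd _ _ _ _ (hs h) (ht h)

/-- the Laurent series of a unit of the function field. -/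
def Ops_ser (v : Additive (FB N)ˣ) : LaurentSeries Qb :=
  (((Additive.toMul v : (FB N)ˣ) : FB N) : LaurentSeries Qb)

/-- (TORS) an operator which vanishes in the Hecke algebra kills the torsion classes. -/
theorem act_TD_tors (K : I.KummerData N) (t : FreeAlgebra ℤ (Idx N S0)) (ht : evT N S0 t = 0)
    (Y : Divisor Qb (FB N)) (n : ℕ) (hn : 0 < n) (hY : n • Y ∈ Pr N) :
    act (TD N S0) t Y ∈ Pr N := by
  obtain ⟨u, hu⟩ := hY
  let Rel : Additive (FB N)ˣ → K.Λ → Prop := fun v y =>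
    IsKummer (N := N) n (Ops_ser v) ∧ K.theta n (Ops_ser v) = K.red n y
  have hone : IsKummer (N := N) n (1 : LaurentSeries Qb) := kummer_isKummer_one
  have hth1 : K.theta n 1 = 0 := by
    have h1 := K.theta_mul n hn 1 1 hone hone
    rw [mul_one] at h1
    exact left_eq_add.mp h1
  have huK : IsKummer (N := N) n (Ops_ser u) := by
    refine Fermat.Agent.S17.WMW.Fin_isKummer n Y _ (Units.ne_zero _) fun v => ?_
    have h1 := congrArg (fun D : Divisor Qb (FB N) => D v) hu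
    simp only [dv_apply, divf_apply, Finsupp.smul_apply, nsmul_eq_mul] at h1
    exact h1.symm
  obtain ⟨x, hx⟩ := K.theta_mem n hn _ huK
  have hrel : Rel u x := ⟨huK, hx.symm⟩
  have hzero : Rel 0 0 := ⟨hone, by rw [map_zero]; exact hth1⟩
  have hadd : ∀ v v' y y', Rel v y → Rel v' y' → Rel (v + v') (y + y') := by
    intro v v' y y' h h'
    have e : Ops_ser (v + v') = Ops_ser v * Ops_ser v' := rfl
    refine ⟨?_, ?_⟩
    · rw [e]
      exact h.1.mul h'.1
    · rw [e, K.theta_mul n hn _ _ h.1 h'.1, h.2, h'.2, map_add]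
  have hneg : ∀ v y, Rel v y → Rel (-v) (-y) := by
    intro v y h
    have e : Ops_ser (-v) = (Ops_ser v)⁻¹ := by
      show ((((Additive.toMul v : (FB N)ˣ)⁻¹ : (FB N)ˣ) : FB N) : LaurentSeries Qb) = _
      rw [Units.val_inv_eq_inv_val]
      rfl
    refine ⟨?_, ?_⟩
    · rw [e]
      exact h.1.inv
    · have h1 := K.theta_mul n hn _ _ h.1 h.1.inv
      rw [mul_inv_cancel₀ h.1.1, hth1, h.2] at h1
      rw [e, map_neg]
      exact eq_neg_of_add_eq_zero_right h1.symm
  have hT : ∀ i v y, Rel v y → Rel (TM N S0 i v) (K.hecke (tau N S0 i) y) := by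
    intro i v y h
    obtain ⟨ζ, hζ⟩ := I.KummerData.exists_primitiveRoot i.1
    have e : Ops_ser (TM N S0 i v) = heckeMulT i.1 ζ (Ops_ser v) :=
      coe_Tfun N i.1 i.2.1 i.2.2.1 ζ hζ (Additive.toMul v)
    refine ⟨?_, ?_⟩
    · rw [e]
      exact (K.heckeStable n i.1 ζ i.2.1 i.2.2.1 hζ).2 _ h.1
    · rw [e]
      exact K.theta_heckeT n hn i.1 i.2.1 i.2.2.1 ζ hζ _ y h.1 h.2
  have key := Ops_act_rel (TM N S0) (tau N S0) K.hecke Rel hzero hadd hneg hT t hrel
  have ht' : FreeAlgebra.lift ℤ (tau N S0) t = 0 := ht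
  rw [ht', map_zero, LinearMap.zero_apply] at key
  obtain ⟨hk1, hk2⟩ := key
  rw [map_zero] at hk2
  obtain ⟨z, hz, hz0, hzz⟩ := (K.theta_eq_iff n hn 1 _ hone hk1).1 (hth1.trans hk2.symm)
  have hzB : z ∈ FB N := by
    rw [show FB N = GR.FF Qb N from S18.bar_eq_FF N]
    exact hz
  have hz0' : (⟨z, hzB⟩ : FB N) ≠ 0 := fun h0 => hz0 (congrArg Subtype.val h0)
  refine ⟨Additive.ofMul (Units.mk0 ⟨z, hzB⟩ hz0'), ?_⟩
  have h1 : act (TM N S0) t u = n • Additive.ofMul (Units.mk0 (⟨z, hzB⟩ : FB N) hz0') := by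
    apply Additive.toMul.injective
    apply Units.ext
    apply Subtype.ext
    show Ops_ser (act (TM N S0) t u) = _
    rw [hzz, one_mul]
    rfl
  have h2 : n • dv N (Additive.ofMul (Units.mk0 (⟨z, hzB⟩ : FB N) hz0')) =
      n • act (TD N S0) t Y := by
    rw [← map_nsmul, ← h1, dv_act, hu, map_nsmul]
  refine Finsupp.ext fun v => ?_
  have h3 := congrArg (fun D : Divisor Qb (FB N) => D v) h2
  simp only [Finsupp.smul_apply, nsmul_eq_mul] at h3
  exact mul_left_cancel₀ (by exact_mod_cast hn.ne') h3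

end Fermat.Agent.LP.Old
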