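import Fermat.Agent.LP.Old.Export
import Fermat.Agent.LP.Desc.Main

/-!
# LP-OLD + LP-DESC: the output `OldOut` of the interface `LP/Iface.lean`
-/

set_option autoImplicit false
set_option synthInstance.maxHeartbeats 400000

noncomputable section

namespace Fermat.Agent.LP.Old

open AlgebraicCurve ModularCurve Fermat.Agent.GR Fermat.Agent.GR.S
open Fermat.Agent.S17.WMW (Qb)

theorem Out_exists_primitiveRoot (ℓ : ℕ) (hℓ : ℓ ≠ 0) : ∃ ζ : Qbˣ, IsPrimitiveRoot ζ ℓ := by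
  haveI : NeZero ℓ := ⟨hℓ⟩
  haveI : NeZero (ℓ : Qb) := ⟨by exact_mod_cast hℓ⟩
  obtain ⟨ζ, hζ⟩ := HasEnoughRootsOfUnity.exists_primitiveRoot Qb ℓ
  exact ⟨hζ.isUnit hℓ |>.unit, IsPrimitiveRoot.coe_units_iff.mp (by simpa using hζ)⟩

theorem oldOut (p M0 : ℕ) [NeZero M0] (hp : p.Prime) (h5 : 5 ≤ p) (hpM : ¬ p ∣ M0)
    (A : ValuationSubring Qb) (hA : A.LiesOverPrime p) : OldOut p M0 A := by
  haveI : NeZero p := ⟨hp.ne_zero⟩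
  intro 𝒪₁ h𝒪₁ S0 a hS0 u2 hK hE hNT hPD
  have hS0' : ∀ ℓ : ℕ, ℓ.Prime → ℓ ∣ p * M0 → ℓ ∈ (S0 : Set ℕ) := fun ℓ hℓ hd =>
    hS0 ℓ hℓ (hd.trans (Nat.mul_dvd_mul_left p (Dvd.intro_left 4 rfl)))
  obtain ⟨U, hU, PD, NT, EIG⟩ :=
    Desc.desc_iface hp h5 hpM hA 𝒪₁ h𝒪₁ (S0 : Set ℕ) a hS0' u2 hK hE hNT hPD
  obtain ⟨𝒪, h𝒪⟩ := R.exists_isGaussRing A M0
  have hcast : ∀ ℓ : ℕ, (((a ℓ % (p : ℤ)).toNat : ℕ) : ZMod p) = (a ℓ : ZMod p) := by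
    intro ℓ
    have h0 : 0 ≤ a ℓ % (p : ℤ) := Int.emod_nonneg _ (by exact_mod_cast hp.ne_zero)
    have h1 : (((a ℓ % (p : ℤ)).toNat : ℕ) : ZMod p) = (((a ℓ % (p : ℤ)).toNat : ℤ) : ZMod p) := by
      push_cast
      rfl
    rw [h1, Int.toNat_of_nonneg h0]
    rw [ZMod.intCast_eq_intCast_iff]
    exact Int.mod_modEq _ _
  obtain ⟨χ, hχ⟩ := old_core M0 p hp h5 hpM A hA (S0 : Set ℕ)
    (hS0' p hp (Dvd.intro _ rfl)) (fun q hq hd => hS0' q hq (Dvd.dvd.mul_left hd p))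
    (fun ℓ => ((a ℓ % (p : ℤ)).toNat : ℤ)) 𝒪 h𝒪 U hU (PD 𝒪 h𝒪) NT (by
      intro ℓ _ hℓ _ hℓS
      obtain ⟨ζ, hζ⟩ := Out_exists_primitiveRoot ℓ hℓ.ne_zero
      refine ⟨ζ, hζ, ?_⟩
      have := EIG ℓ ζ hℓ hℓS hζ _ (hcast ℓ)
      rwa [div_eq_mul_inv, ← zpow_natCast] at this)
  refine ⟨χ, fun ℓ hℓ hℓN hℓS => ?_⟩
  rw [hχ ℓ hℓ hℓN hℓS, ← hcast ℓ]
  push_cast
  rfl

end Fermat.Agent.LP.Old
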