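import Fermat.Agent.LP.Old.Hecke
import Fermat.Agent.LP.Old.Abs
import Fermat.Agent.GR.S.R.Main
import Fermat.Agent.GR.D.Top.CaseJ
import Fermat.Agent.GS.Iface

/-!
# LP-OLD, file 4: the reduction data at a prime `p ∤ N`, `p ≥ 5`, on `FB N`

Everything of helper45's module GR-S-R is transported from `FF ℚ̄ N` to `FB N` (the two intermediate
fields are equal, `GR.S.bar_eq_FF`, but not definitionally).
-/

set_option autoImplicit false
set_option synthInstance.maxHeartbeats 400000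

noncomputable section

namespace Fermat.Agent.LP.Old

open AlgebraicCurve ModularCurve Fermat.Agent.GR Fermat.Agent.GR.S Fermat.Agent.S17.FF
open Fermat.Agent.S17.WMW (Qb GQ FB gal)

/-- The reduction data on an intermediate field `E` of `ℚ̄((q))`. -/
structure RedData (A : ValuationSubring Qb) (E : IntermediateField Qb (LaurentSeries Qb))
    [IsFF Qb E] (𝒪 : ValuationSubring E) (h : E) : Prop where
  gauss : R.GaussData A 𝒪
  c0 : R.RChart A 𝒪 h
  c1 : R.RChart A 𝒪 h⁻¹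
  ne_zero : h ≠ 0
  /-- `h` has rational coefficients. -/
  rat : ∀ σ : GQ, coeffMap (σ : Qb →+* Qb) (h : LaurentSeries Qb) = (h : LaurentSeries Qb)
  /-- the maximal ideal of the Gauss valuation in terms of `q`-expansions. -/
  spec' : ∀ u : E, u ∈ 𝒪.nonunits ↔ ∃ f g : LaurentSeries Qb, f ∈ E ∧ g ∈ E ∧
    (∀ n : ℤ, f.coeff n ∈ A.nonunits) ∧ IsPrim A g ∧ (u : LaurentSeries Qb) * g = f

/-- existence on `FF ℚ̄ N`, from `GR.D.Top.hasModel_j` and `GR.S.Main_levelChart`, `Main_rChart`,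
`exists_isGaussRing`, `IsGaussRing.gaussData` (copy the first lines of `GR.S.exists_isRed`). -/
theorem Red_exists_FF (N : ℕ) [NeZero N] (p : ℕ) (hp : p.Prime) (h5 : 5 ≤ p) (hpN : ¬ p ∣ N)
    (A : ValuationSubring Qb) (hA : A.LiesOverPrime p) (𝒪 : ValuationSubring (FF Qb N))
    (h𝒪 : R.IsGaussRing A N 𝒪) (E : IntermediateField Qb (LaurentSeries Qb)) [IsFF Qb E]
    (hE : E = FF Qb N) :
    ∃ h : E, RedData A E (𝒪.comap (IntermediateField.equivOfEq hE).toRingEquiv.toRingHom) h := by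
  subst hE
  have hcomap : 𝒪.comap (IntermediateField.equivOfEq
      (rfl : FF Qb N = FF Qb N)).toRingEquiv.toRingHom = 𝒪 := by
    ext x
    rw [ValuationSubring.mem_comap]
    have hx : (IntermediateField.equivOfEq
        (rfl : FF Qb N = FF Qb N)).toRingEquiv.toRingHom x = x := by
      rw [IntermediateField.equivOfEq_rfl]
      rfl
    rw [hx]
  rw [hcomap]
  have hM := GR.D.Top.hasModel_j N p hp h5 hpN A hA
  obtain ⟨L0, L1⟩ := Main_levelChart A p hp hA N (jqModC ℤ) hM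
  refine ⟨⟨GR.E.baseFn Qb (jqModC ℤ), hM.mem Qb⟩, ?_⟩
  refine ⟨h𝒪.gaussData, Main_rChart hp hA h𝒪 L0 hM.transc,
    Main_rChart hp hA h𝒪 L1 (GR.E.BR7_transcendental_inv hM.transc), ?_, ?_, h𝒪.spec'⟩
  · intro h0
    apply hM.transc
    rw [h0]
    exact isAlgebraic_zero
  · intro σ
    ext n
    change σ ((Int.castRingHom Qb) ((jqModC ℤ).coeff n)) = (Int.castRingHom Qb) ((jqModC ℤ).coeff n)
    simp

/-- the Gauss ring of `FF ℚ̄ N` transported to `FB N`. -/
def toBar (N : ℕ) (𝒪 : ValuationSubring (FF Qb N)) : ValuationSubring (FB N) :=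
  𝒪.comap (IntermediateField.equivOfEq (bar_eq_FF N)).toRingEquiv.toRingHom

theorem exists_redData (N : ℕ) [NeZero N] (p : ℕ) (hp : p.Prime) (h5 : 5 ≤ p) (hpN : ¬ p ∣ N)
    (A : ValuationSubring Qb) (hA : A.LiesOverPrime p) (𝒪 : ValuationSubring (FF Qb N))
    (h𝒪 : R.IsGaussRing A N 𝒪) : ∃ h : FB N, RedData A (FB N) (toBar N 𝒪) h :=
  Red_exists_FF N p hp h5 hpN A hA 𝒪 h𝒪 (FB N) (bar_eq_FF N)

variable {A : ValuationSubring Qb} {N : ℕ} [NeZero N] {𝒪 : ValuationSubring (FB N)} {h : FB N}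

/-- reduction of divisors. -/
def rho (A : ValuationSubring Qb) (h : FB N) :
    Divisor Qb (FB N) →+ ((Set (FB N) ⊕ Set (FB N)) →₀ ℤ) :=
  Finsupp.mapDomain.addMonoidHom (R.red A h)

theorem rho_apply (D : Divisor Qb (FB N)) : rho A h D = D.mapDomain (R.red A h) := rfl

theorem tot_rho (D : Divisor Qb (FB N)) : tot (rho A h D) = Divisor.degree D := by
  rw [rho_apply, tot_mapDomain, degree_eq_sum]

theorem l1_rho_le (D : Divisor Qb (FB N)) : l1 (rho A h D) ≤ l1 D :=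
  l1_mapDomain_le _ _

/-- classes which are trivial at the Gauss valuation, modulo `p`-th powers. -/
def trivSub (p : ℕ) (𝒪 : ValuationSubring (FB N)) : AddSubgroup (Additive (FB N)ˣ) :=
  Subgroup.toAddSubgroup (𝒪.principalUnitGroup ⊔ (powMonoidHom p : (FB N)ˣ →* (FB N)ˣ).range)

theorem mem_trivSub_iff (p : ℕ) (u : Additive (FB N)ˣ) :
    u ∈ trivSub p 𝒪 ↔
      ∃ z : (FB N)ˣ, ((Additive.toMul u : (FB N)ˣ) : FB N) * (z : FB N) ^ p - 1 ∈ 𝒪.nonunits := by
  have h1 : u ∈ trivSub p 𝒪 ↔ Additive.toMul u ∈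
      (𝒪.principalUnitGroup ⊔ (powMonoidHom p : (FB N)ˣ →* (FB N)ˣ).range) := Iff.rfl
  rw [h1, Subgroup.mem_sup]
  constructor
  · rintro ⟨y, hy, _, ⟨w, rfl⟩, hyw⟩
    refine ⟨w⁻¹, ?_⟩
    rw [← hyw, ValuationSubring.mem_nonunits_iff]
    rw [ValuationSubring.mem_principalUnitGroup_iff] at hy
    have e : ((y * (powMonoidHom p : (FB N)ˣ →* (FB N)ˣ) w : (FB N)ˣ) : FB N) *
        ((w⁻¹ : (FB N)ˣ) : FB N) ^ p = (y : FB N) := by
      rw [powMonoidHom_apply, ← Units.val_pow_eq_pow_val, ← Units.val_mul, inv_pow,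
        mul_inv_cancel_right]
    rw [e]
    exact hy
  · rintro ⟨z, hz⟩
    refine ⟨Additive.toMul u * z ^ p, ?_, (z⁻¹) ^ p, ⟨z⁻¹, rfl⟩, ?_⟩
    · rw [ValuationSubring.mem_principalUnitGroup_iff, Units.val_mul, Units.val_pow_eq_pow_val,
        ← ValuationSubring.mem_nonunits_iff]
      exact hz
    · rw [inv_pow, mul_inv_cancel_right]

theorem nsmul_mem_trivSub (p : ℕ) (u : Additive (FB N)ˣ) : p • u ∈ trivSub p 𝒪 := by
  have h1 : p • u ∈ trivSub p 𝒪 ↔ Additive.toMul (p • u) ∈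
      (𝒪.principalUnitGroup ⊔ (powMonoidHom p : (FB N)ˣ →* (FB N)ˣ).range) := Iff.rfl
  rw [h1]
  exact Subgroup.mem_sup_right ⟨Additive.toMul u, rfl⟩

/-- the divisor of `u` reduces to `0` iff `u` is a constant times a principal unit
(`R.exists_const_of_mapDomain_red`, `R.mapDomain_red_eq_zero`). -/
theorem rho_dv_eq_zero_iff (RD : RedData A (FB N) 𝒪 h) (u : Additive (FB N)ˣ) :
    rho A h (dv N u) = 0 ↔ ∃ κ : Qb, κ ≠ 0 ∧
      ((Additive.toMul u : (FB N)ˣ) : FB N) / algebraMap Qb (FB N) κ - 1 ∈ 𝒪.nonunits := by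
  rw [rho_apply, dv_apply]
  constructor
  · intro h0
    exact R.exists_const_of_mapDomain_red RD.gauss RD.ne_zero RD.c0 RD.c1
      (Additive.toMul u).ne_zero h0
  · rintro ⟨κ, hκ, hw⟩
    have h1 := R.mapDomain_red_eq_zero RD.gauss RD.ne_zero RD.c0 RD.c1 hw
    have hκF : algebraMap Qb (FB N) κ ≠ 0 := by simpa using hκ
    rwa [div_eq_mul_inv, divf_mul (Additive.toMul u).ne_zero (inv_ne_zero hκF), divf_inv,
      divf_algebraMap, neg_zero, add_zero] at h1

/-- constants are `p`-th powers. -/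
theorem mem_trivSub_of_rho_dv (RD : RedData A (FB N) 𝒪 h) {p : ℕ} (hp : 0 < p)
    {u : Additive (FB N)ˣ} (hu : rho A h (dv N u) = 0) : u ∈ trivSub p 𝒪 := by
  obtain ⟨κ, hκ, hw⟩ := (rho_dv_eq_zero_iff RD u).1 hu
  obtain ⟨μ, hμ⟩ := IsAlgClosed.exists_pow_nat_eq κ hp
  have hμ0 : μ ≠ 0 := by
    rintro rfl
    rw [zero_pow hp.ne'] at hμ
    exact hκ hμ.symm
  have hμF : algebraMap Qb (FB N) μ ≠ 0 := by simpa using hμ0
  rw [mem_trivSub_iff]
  refine ⟨(Units.mk0 _ hμF)⁻¹, ?_⟩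
  have e : (((Units.mk0 _ hμF)⁻¹ : (FB N)ˣ) : FB N) ^ p = (algebraMap Qb (FB N) κ)⁻¹ := by
    rw [Units.val_inv_eq_inv_val, Units.val_mk0, inv_pow, ← map_pow, hμ]
  rw [e, ← div_eq_mul_inv]
  exact hw

/-- the link with `GS.TrivAt`. -/
theorem trivAt_iff (RD : RedData A (FB N) 𝒪 h) (p : ℕ) (u : (FB N)ˣ) :
    GS.TrivAt N p A ((u : FB N) : LaurentSeries Qb) ↔ Additive.ofMul u ∈ trivSub p 𝒪 := by
  have hmem : ∀ x : LaurentSeries Qb, x ∈ FB N ↔ x ∈ FF Qb N := fun x => by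
    rw [show FB N = FF Qb N from bar_eq_FF N]
  rw [mem_trivSub_iff]
  constructor
  · rintro ⟨a, b, ha, hb, hpa, hib, hab, z, hz, hz0, hzeq⟩
    have hpb : IsPrim A b := by
      refine ⟨hib, ?_⟩
      obtain ⟨n, hn⟩ := hpa.2
      refine ⟨n, fun hbn => hn ?_⟩
      have h2 := GR.E.BR7_add_mem_nonunits A (hab n) hbn
      rwa [sub_add_cancel] at h2
    have hb0 : b ≠ 0 := by
      rintro rfl
      obtain ⟨n, hn⟩ := hpb.2
      exact hn (by simp)
    have hz' : (⟨z, (hmem z).2 hz⟩ : FB N) ≠ 0 := fun h0 => hz0 (congrArg Subtype.val h0)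
    refine ⟨Units.mk0 _ hz', ?_⟩
    rw [RD.spec']
    refine ⟨a - b, b, sub_mem ((hmem a).2 ha) ((hmem b).2 hb), (hmem b).2 hb, fun n => ?_, hpb, ?_⟩
    · rw [HahnSeries.coeff_sub]
      exact hab n
    · have e : (((Additive.toMul (Additive.ofMul u) : (FB N)ˣ) : FB N) *
          ((Units.mk0 _ hz' : (FB N)ˣ) : FB N) ^ p - 1 : FB N) =
          (⟨((u : FB N) : LaurentSeries Qb) * z ^ p - 1,
            sub_mem (mul_mem (u : FB N).2 (pow_mem ((hmem z).2 hz) p)) (one_mem _)⟩ : FB N) := by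
        apply Subtype.ext
        rfl
      rw [e]
      change (((u : FB N) : LaurentSeries Qb) * z ^ p - 1) * b = a - b
      rw [← hzeq]
      field_simp
  · rintro ⟨z, hz⟩
    rw [RD.spec'] at hz
    obtain ⟨f, g, hf, hg, hf0, hgp, hfg⟩ := hz
    have hg0 : g ≠ 0 := by
      rintro rfl
      obtain ⟨n, hn⟩ := hgp.2
      exact hn (by simp)
    refine ⟨f + g, g, (hmem _).1 (add_mem hf hg), (hmem _).1 hg, ⟨fun n => ?_, ?_⟩, hgp.1,
      fun n => ?_, (z : FB N), (hmem _).1 (z : FB N).2, fun h0 => z.ne_zero (Subtype.ext h0), ?_⟩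
    · rw [HahnSeries.coeff_add]
      exact A.add_mem _ _ (A.nonunits_subset (hf0 n)) (hgp.1 n)
    · obtain ⟨n, hn⟩ := hgp.2
      refine ⟨n, fun hmem' => hn ?_⟩
      rw [HahnSeries.coeff_add] at hmem'
      have h1 : -f.coeff n ∈ A.nonunits := by
        rw [ValuationSubring.mem_nonunits_iff, Valuation.map_neg,
          ← ValuationSubring.mem_nonunits_iff]
        exact hf0 n
      have h2 := GR.E.BR7_add_mem_nonunits A hmem' h1
      rwa [add_comm (f.coeff n), add_neg_cancel_right] at h2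
    · rw [HahnSeries.coeff_add, add_sub_cancel_right]
      exact hf0 n
    · have e : ((((Additive.toMul (Additive.ofMul u) : (FB N)ˣ) : FB N) * (z : FB N) ^ p - 1 :
          FB N) : LaurentSeries Qb) =
          ((u : FB N) : LaurentSeries Qb) * ((z : FB N) : LaurentSeries Qb) ^ p - 1 := rfl
      rw [e] at hfg
      rw [← hfg]
      field_simp
      ring

end Fermat.Agent.LP.Old
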